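/-
S51 (semistable ⇒ mod 3 or mod 5 irreducible): shared definitions.

Short Weierstrass bookkeeping: for a Weierstrass curve with invariants `c₄, c₆` put
`A = -c₄/48`, `B = -c₆/864`; in the coordinate `ξ = x + b₂/12` the curve is `y² = ξ³ + Aξ + B`
and the duplication map on `ξ`-coordinates is `ξ ↦ dupF A B ξ / dupG A B ξ`.
-/
import Mathlib

set_option autoImplicit false

namespace Fermat.Agent.S51

variable {F : Type*} [Field F]

/-- Numerator of the duplication map in the short coordinate. -/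
def dupF (A B X : F) : F := X ^ 4 - 2 * A * X ^ 2 - 8 * B * X + A ^ 2

/-- Denominator of the duplication map in the short coordinate (`= (2y + a₁x + a₃)²`). -/
def dupG (A B X : F) : F := 4 * (X ^ 3 + A * X + B)

/-- The 3-division polynomial in the short coordinate (`= X * dupG - dupF`). -/
def psi3 (A B X : F) : F := 3 * X ^ 4 + 6 * A * X ^ 2 + 12 * B * X - A ^ 2

/-- First relation satisfied by `s = ξ(P) + ξ(2P)`, `m = ξ(P) ξ(2P)` for `P` of order 5. -/
def e5a (A B s m : F) : F := s ^ 3 - 6 * s * m - 2 * A * s - 4 * B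

/-- Second relation satisfied by `s = ξ(P) + ξ(2P)`, `m = ξ(P) ξ(2P)` for `P` of order 5. -/
def e5b (A s m : F) : F := A ^ 2 + 2 * A * (s ^ 2 - m) + 5 * m ^ 2 + 5 * m * s ^ 2 - s ^ 4

/-- Abstract "short x-coordinate" on an abelian group `G` (the points of an elliptic curve
`y² = ξ³ + Aξ + B` over an algebraically closed field): the only facts about the group law
that the torsion analysis uses. -/
structure IsXi {G : Type*} [AddCommGroup G] (A B : F) (xi : G → F) : Prop where
  disc_ne : 4 * A ^ 3 + 27 * B ^ 2 ≠ 0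
  two_nsmul_eq_zero_iff : ∀ P : G, P ≠ 0 → ((2 : ℕ) • P = 0 ↔ dupG A B (xi P) = 0)
  xi_two_nsmul : ∀ P : G, P ≠ 0 → (2 : ℕ) • P ≠ 0 →
    xi ((2 : ℕ) • P) * dupG A B (xi P) = dupF A B (xi P)
  xi_eq_iff : ∀ P Q : G, P ≠ 0 → Q ≠ 0 → (xi P = xi Q ↔ P = Q ∨ P = -Q)
  exists_xi : ∀ x : F, ∃ P : G, P ≠ 0 ∧ xi P = x

end Fermat.Agent.S51
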