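/-
S51 algebra core: from the rational torsion data (a rational root `ξ` of the 3-division
polynomial and the rational symmetric functions `s, m` of the x-coordinates of a stable line in
`E[5]`) to the pair `(h, t)` of Hauptmodul values on `X₀(3)`, `X₀(5)`.
-/
import Fermat.Agent.S51.Defs

set_option autoImplicit false

namespace Fermat.Agent.S51

namespace AlgCore

/-- Bezout: the duplication numerator and denominator have no common root. -/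
theorem dupG_ne_zero_of_psi3 {A B ξ : ℚ} (hD : 4 * A ^ 3 + 27 * B ^ 2 ≠ 0)
    (h3 : psi3 A B ξ = 0) : dupG A B ξ ≠ 0 := by
  intro h0
  apply hD
  unfold psi3 at h3
  unfold dupG at h0
  linear_combination (-(3 * ξ ^ 2 + 4 * A)) * h3 +
    ((3 * ξ ^ 2 + 4 * A) * ξ - (3 * ξ ^ 3 - 5 * A * ξ - 27 * B) / 4) * h0

/-- The 3-part: `h = Δ / G(ξ)²` satisfies `c₄³ / Δ * h = (h + 27) (h + 3)³`. -/
theorem three_part (A B ξ : ℚ) (h3 : psi3 A B ξ = 0) (hD : 4 * A ^ 3 + 27 * B ^ 2 ≠ 0) :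
    ∃ h : ℚ, h ≠ 0 ∧
      ((-48 * A) ^ 3 / (-16 * (4 * A ^ 3 + 27 * B ^ 2))) * h = (h + 27) * (h + 3) ^ 3 := by
  have hG0 : dupG A B ξ ≠ 0 := dupG_ne_zero_of_psi3 hD h3
  have hΔ : (-16 * (4 * A ^ 3 + 27 * B ^ 2) : ℚ) ≠ 0 := mul_ne_zero (by norm_num) hD
  unfold psi3 at h3
  unfold dupG at hG0
  set G : ℚ := 4 * (ξ ^ 3 + A * ξ + B) with hG
  set Δ : ℚ := -16 * (4 * A ^ 3 + 27 * B ^ 2) with hΔdef
  have e1 : Δ + 27 * G ^ 2 = 8 * (3 * ξ ^ 2 + A) ^ 3 := by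
    rw [hG, hΔdef]; linear_combination (72 * ξ ^ 2 + 72 * A) * h3
  have e2 : Δ + 3 * G ^ 2 = -24 * G * (ξ ^ 3 + 3 * A * ξ + 4 * B) := by
    rw [hG, hΔdef]; linear_combination (48 * ξ ^ 2 + 64 * A) * h3
  have e4 : A * G = (3 * ξ ^ 2 + A) * (ξ ^ 3 + 3 * A * ξ + 4 * B) := by
    rw [hG]; linear_combination (-ξ) * h3
  refine ⟨Δ / G ^ 2, div_ne_zero hΔ (pow_ne_zero 2 hG0), ?_⟩
  have h27 : Δ / G ^ 2 + 27 = 8 * (3 * ξ ^ 2 + A) ^ 3 / G ^ 2 := by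
    rw [← e1]; field_simp
  have h3' : Δ / G ^ 2 + 3 = -24 * (ξ ^ 3 + 3 * A * ξ + 4 * B) / G := by
    rw [eq_div_iff hG0, add_mul, div_mul_eq_mul_div, div_add' _ _ _ (pow_ne_zero 2 hG0),
      div_eq_iff (pow_ne_zero 2 hG0)]
    linear_combination G * e2
  have hL : ((-48 * A) ^ 3 / Δ) * (Δ / G ^ 2) = -110592 * A ^ 3 / G ^ 2 := by
    field_simp
    ring
  have hR : (Δ / G ^ 2 + 27) * (Δ / G ^ 2 + 3) ^ 3 = -110592 * A ^ 3 / G ^ 2 := by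
    rw [h27, h3']
    have hstep : 8 * (3 * ξ ^ 2 + A) ^ 3 / G ^ 2 * (-24 * (ξ ^ 3 + 3 * A * ξ + 4 * B) / G) ^ 3
        = -110592 * ((3 * ξ ^ 2 + A) * (ξ ^ 3 + 3 * A * ξ + 4 * B)) ^ 3 / G ^ 5 := by
      field_simp
      ring
    rw [hstep, ← e4]
    field_simp
  rw [hL, hR]

/-- The 5-part: `t = Δ / d³` (`d = s² - 4m`) satisfies `c₄³ / Δ * t = (t² + 10 t + 5)³`. -/
theorem five_part (A B s m : ℚ) (h5a : e5a A B s m = 0) (h5b : e5b A s m = 0)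
    (hd : s ^ 2 - 4 * m ≠ 0) (hD : 4 * A ^ 3 + 27 * B ^ 2 ≠ 0) :
    ∃ t : ℚ, t ≠ 0 ∧
      ((-48 * A) ^ 3 / (-16 * (4 * A ^ 3 + 27 * B ^ 2))) * t = (t ^ 2 + 10 * t + 5) ^ 3 := by
  have hΔ : (-16 * (4 * A ^ 3 + 27 * B ^ 2) : ℚ) ≠ 0 := mul_ne_zero (by norm_num) hD
  unfold e5a at h5a
  unfold e5b at h5b
  set d : ℚ := s ^ 2 - 4 * m with hddef
  set Δ : ℚ := -16 * (4 * A ^ 3 + 27 * B ^ 2) with hΔdef
  set tn : ℚ := 4 * (A + s ^ 2 - m) - 11 * d with htn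
  have hΔ5 : Δ = d ^ 2 * tn := by
    rw [hΔdef, htn, hddef]
    linear_combination (-64 * A + 20 * s ^ 2 - 128 * m) * h5b +
      (27 * (4 * B + (s ^ 3 - 6 * s * m - 2 * A * s))) * h5a
  have hc4 : -48 * A * d = tn ^ 2 + 10 * tn * d + 5 * d ^ 2 := by
    rw [htn, hddef]
    linear_combination (-16) * h5b
  have htn0 : tn ≠ 0 := by
    intro h0; rw [h0, mul_zero] at hΔ5; exact hΔ hΔ5
  refine ⟨tn / d, div_ne_zero htn0 hd, ?_⟩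
  have hc : (-48 * A) = d * ((tn / d) ^ 2 + 10 * (tn / d) + 5) := by
    field_simp
    linear_combination hc4
  rw [hc, hΔ5]
  field_simp

end AlgCore

/-- Algebra core of S51. -/
theorem alg_core (A B ξ s m : ℚ) (h3 : psi3 A B ξ = 0) (h5a : e5a A B s m = 0)
    (h5b : e5b A s m = 0) (hd : s ^ 2 - 4 * m ≠ 0) (hD : 4 * A ^ 3 + 27 * B ^ 2 ≠ 0) :
    ∃ h t : ℚ, h ≠ 0 ∧ t ≠ 0 ∧
      ((-48 * A) ^ 3 / (-16 * (4 * A ^ 3 + 27 * B ^ 2))) * h = (h + 27) * (h + 3) ^ 3 ∧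
      ((-48 * A) ^ 3 / (-16 * (4 * A ^ 3 + 27 * B ^ 2))) * t = (t ^ 2 + 10 * t + 5) ^ 3 := by
  obtain ⟨h, hh, hh3⟩ := AlgCore.three_part A B ξ h3 hD
  obtain ⟨t, ht, ht5⟩ := AlgCore.five_part A B s m h5a h5b hd hD
  exact ⟨h, t, hh, ht, hh3, ht5⟩

end Fermat.Agent.S51
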