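/-
S51 package (A): the short x-coordinate on the points of a Weierstrass curve over `ℚ`
base-changed to an algebraically closed field `K`, and its compatibility with the group law
(`IsXi`) and with the Galois action of the prelude.
-/
import Fermat.Agent.S51.Defs
import Fermat.Prelude.Def_FLTPrelim_GaloisRep

set_option autoImplicit false

open WeierstrassCurve WeierstrassCurve.Affine

namespace Fermat.Agent.S51

namespace Coord

variable {K : Type*} [Field K]

/-- The short x-coordinate `x + b₂/12` on the points of a Weierstrass curve over a field. -/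
noncomputable def xiAff (W : Affine K) : W.Point → K
  | .zero => 0
  | .some x _ _ => x + W.b₂ / 12

theorem xiAff_some (W : Affine K) {x y : K} (h : W.Nonsingular x y) :
    xiAff W (.some x y h) = x + W.b₂ / 12 := rfl

/-- `dupG` at the short coordinate is the square of `2y + a₁x + a₃`. -/
theorem dupG_eq [CharZero K] (W : Affine K) {x y : K} (h : W.Equation x y) :
    dupG (-W.c₄ / 48) (-W.c₆ / 864) (x + W.b₂ / 12) = (y - W.negY x y) ^ 2 := by
  rw [equation_iff] at h
  simp only [dupG, negY, WeierstrassCurve.c₄, WeierstrassCurve.c₆, WeierstrassCurve.b₂,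
    WeierstrassCurve.b₄, WeierstrassCurve.b₆]
  linear_combination (-4 : K) * h

theorem isXi_xiAff [DecidableEq K] [CharZero K] [IsAlgClosed K] (W : Affine K) (hΔ : W.Δ ≠ 0) :
    IsXi (-W.c₄ / 48) (-W.c₆ / 864) (xiAff W) where
  disc_ne := by
    have h : 4 * (-W.c₄ / 48) ^ 3 + 27 * (-W.c₆ / 864) ^ 2 = -W.Δ / 16 := by
      linear_combination (1 / 27648 : K) * W.c_relation
    rw [h]
    exact div_ne_zero (neg_ne_zero.mpr hΔ) (by norm_num)
  two_nsmul_eq_zero_iff := by
    rintro (_ | ⟨x, y, h⟩) hP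
    · exact absurd rfl hP
    · rw [two_nsmul, xiAff_some, dupG_eq W h.1]
      by_cases hy : y = W.negY x y
      · rw [Point.add_self_of_Y_eq hy]
        simp only [true_iff]
        rw [sub_eq_zero.mpr hy]
        ring
      · rw [Point.add_self_of_Y_ne hy]
        constructor
        · intro h0
          exact absurd h0 (Point.some_ne_zero _)
        · intro h0
          exact absurd (sub_eq_zero.mp ((pow_eq_zero_iff two_ne_zero).mp h0)) hy
  xi_two_nsmul := by
    rintro (_ | ⟨x, y, h⟩) hP h2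
    · exact absurd rfl hP
    · have hy : y ≠ W.negY x y := by
        intro hy
        apply h2
        rw [two_nsmul, Point.add_self_of_Y_eq hy]
      rw [two_nsmul, Point.add_self_of_Y_ne hy, xiAff_some, xiAff_some, dupG_eq W h.1]
      have hD : y - W.negY x y ≠ 0 := sub_ne_zero.mpr hy
      have hℓ : W.slope x x y y * (y - W.negY x y) =
          3 * x ^ 2 + 2 * W.a₂ * x + W.a₄ - W.a₁ * y := by
        rw [slope_of_Y_ne rfl hy, div_mul_cancel₀ _ hD]
      have heq := (equation_iff _ _).mp h.1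
      generalize W.slope x x y y = ℓ at hℓ
      simp only [addX, dupF, negY, WeierstrassCurve.c₄, WeierstrassCurve.c₆, WeierstrassCurve.b₂,
        WeierstrassCurve.b₄, WeierstrassCurve.b₆] at hℓ ⊢
      linear_combination (ℓ * (y - (-y - W.a₁ * x - W.a₃)) +
        (3 * x ^ 2 + 2 * W.a₂ * x + W.a₄ - W.a₁ * y) + W.a₁ * (y - (-y - W.a₁ * x - W.a₃))) * hℓ +
        (-8 * x - 8 / 3 * W.a₂ - 2 / 3 * W.a₁ ^ 2) * heq
  xi_eq_iff := by
    rintro (_ | ⟨x₁, y₁, h₁⟩) (_ | ⟨x₂, y₂, h₂⟩) hP hQ
    · exact absurd rfl hP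
    · exact absurd rfl hP
    · exact absurd rfl hQ
    · rw [xiAff_some, xiAff_some, add_left_inj]
      exact Point.X_eq_iff
  exists_xi := by
    intro ξ
    obtain ⟨s, hs⟩ := IsAlgClosed.exists_pow_nat_eq
      (4 * (ξ - W.b₂ / 12) ^ 3 + W.b₂ * (ξ - W.b₂ / 12) ^ 2 + 2 * W.b₄ * (ξ - W.b₂ / 12) + W.b₆)
      (n := 2) (by norm_num)
    have heq : W.Equation (ξ - W.b₂ / 12) ((s - W.a₁ * (ξ - W.b₂ / 12) - W.a₃) / 2) := by
      rw [equation_iff]
      simp only [WeierstrassCurve.b₂, WeierstrassCurve.b₄, WeierstrassCurve.b₆] at hs ⊢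
      linear_combination (1 / 4 : K) * hs
    have hns := (equation_iff_nonsingular_of_Δ_ne_zero hΔ).mp heq
    refine ⟨.some _ _ hns, Point.some_ne_zero _, ?_⟩
    rw [xiAff_some]
    ring

end Coord

variable {K : Type*} [Field K] [Algebra ℚ K] [DecidableEq K]

/-- The short x-coordinate `x + b₂/12` of an affine point (and `0` at the point at infinity). -/
noncomputable def xiK (E : WeierstrassCurve ℚ) : (E⁄K).Point → K
  | .zero => 0
  | .some x _ _ => x + algebraMap ℚ K (E.b₂ / 12)

/-- `xiK` is a short x-coordinate in the sense of `IsXi`, with `A = -c₄/48`, `B = -c₆/864`. -/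
theorem isXi_xiK [IsAlgClosed K] (E : WeierstrassCurve ℚ) (hΔ : E.Δ ≠ 0) :
    IsXi (algebraMap ℚ K (-E.c₄ / 48)) (algebraMap ℚ K (-E.c₆ / 864)) (xiK (K := K) E) := by
  have hchar : CharZero K := algebraRat.charZero K
  have hΔ' : (E⁄K).Δ ≠ 0 := by
    rw [show (E⁄K).Δ = algebraMap ℚ K E.Δ from WeierstrassCurve.map_Δ ..]
    exact (map_ne_zero _).mpr hΔ
  have h := Coord.isXi_xiAff (E⁄K) hΔ'
  have hA : algebraMap ℚ K (-E.c₄ / 48) = -(E⁄K).c₄ / 48 := by
    rw [show (E⁄K).c₄ = algebraMap ℚ K E.c₄ from WeierstrassCurve.map_c₄ ..]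
    simp
  have hB : algebraMap ℚ K (-E.c₆ / 864) = -(E⁄K).c₆ / 864 := by
    rw [show (E⁄K).c₆ = algebraMap ℚ K E.c₆ from WeierstrassCurve.map_c₆ ..]
    simp
  have hxi : xiK (K := K) E = Coord.xiAff (E⁄K) := by
    funext P
    cases P with
    | zero => rfl
    | some x y hxy =>
      rw [Coord.xiAff_some, show (E⁄K).b₂ = algebraMap ℚ K E.b₂ from WeierstrassCurve.map_b₂ ..]
      simp [xiK]
  rw [hA, hB, hxi]
  exact h

/-- `xiK` is equivariant for the Galois action of the prelude. -/
theorem xiK_smul (E : WeierstrassCurve ℚ) (σ : K ≃ₐ[ℚ] K) (P : (E⁄K).Point) :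
    xiK E (σ • P) = σ (xiK E P) := by
  cases P with
  | zero =>
    change xiK E (Point.map σ.toAlgHom (0 : (E⁄K).Point)) = σ 0
    rw [Point.map_zero, map_zero]
    rfl
  | some x y hxy =>
    change xiK E (Point.map σ.toAlgHom (Point.some x y hxy)) = σ (x + algebraMap ℚ K (E.b₂ / 12))
    rw [Point.map_some, map_add, AlgEquiv.commutes]
    rfl

end Fermat.Agent.S51
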