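/-
S51, Diophantine core (helper27), part 1:
the curve `Y ^ 2 = X (X - 1) (X - 81)` has no rational point with `Y ≠ 0`.
Fermat descent on the system `A ^ 2 = B ^ 2 + e ^ 2 = C ^ 2 + 81 e ^ 2`.
-/
import Mathlib

set_option autoImplicit false

namespace Fermat.Agent.S51

namespace Descent

/-- If `a * b` is a perfect square then `a` and `b` have the same squarefree part. -/
theorem sq_decomp {a b n : ℕ} (ha : 0 < a) (h : a * b = n ^ 2) :
    ∃ d s t : ℕ, Squarefree d ∧ a = d * s ^ 2 ∧ b = d * t ^ 2 := by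
  obtain ⟨d, s, hs, hd⟩ := Nat.sq_mul_squarefree a
  have hs0 : 0 < s := by
    rcases Nat.eq_zero_or_pos s with h0 | h0
    · subst h0
      simp at hs
      omega
    · exact h0
  have hd0 : 0 < d := Nat.pos_of_ne_zero hd.ne_zero
  have h1 : s ^ 2 ∣ n ^ 2 := ⟨d * b, by rw [← h, ← hs]; ring⟩
  have hsn : s ∣ n := (Nat.pow_dvd_pow_iff (by norm_num)).mp h1
  obtain ⟨n₁, rfl⟩ := hsn
  have h2 : d * b = n₁ ^ 2 := by
    have h3 : s ^ 2 * (d * b) = s ^ 2 * n₁ ^ 2 := by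
      rw [← mul_assoc, hs, h]; ring
    exact Nat.eq_of_mul_eq_mul_left (by positivity) h3
  have hdn : d ∣ n₁ := (hd.dvd_pow_iff_dvd two_ne_zero).mp ⟨b, h2.symm⟩
  obtain ⟨t, rfl⟩ := hdn
  refine ⟨d, s, t, hd, by rw [← hs]; ring, ?_⟩
  apply Nat.eq_of_mul_eq_mul_left hd0
  rw [h2]; ring

theorem squarefree_dvd_81 {d : ℕ} (hd : Squarefree d) (h : d ∣ 81) : d = 1 ∨ d = 3 := by
  have hmem : d ∈ Nat.divisors 81 := Nat.mem_divisors.mpr ⟨h, by norm_num⟩
  have hdiv : Nat.divisors 81 = {1, 3, 9, 27, 81} := by decide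
  rw [hdiv] at hmem
  simp only [Finset.mem_insert, Finset.mem_singleton] at hmem
  rcases hmem with rfl | rfl | rfl | rfl | rfl
  · exact Or.inl rfl
  · exact Or.inr rfl
  · exact absurd (hd 3 ⟨1, by norm_num⟩) (by simp)
  · exact absurd (hd 3 ⟨3, by norm_num⟩) (by simp)
  · exact absurd (hd 3 ⟨9, by norm_num⟩) (by simp)

theorem squarefree_dvd_80 {d : ℕ} (hd : Squarefree d) (h : d ∣ 80) :
    d = 1 ∨ d = 2 ∨ d = 5 ∨ d = 10 := by
  have hmem : d ∈ Nat.divisors 80 := Nat.mem_divisors.mpr ⟨h, by norm_num⟩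
  have hdiv : Nat.divisors 80 = {1, 2, 4, 5, 8, 10, 16, 20, 40, 80} := by decide
  rw [hdiv] at hmem
  simp only [Finset.mem_insert, Finset.mem_singleton] at hmem
  rcases hmem with rfl | rfl | rfl | rfl | rfl | rfl | rfl | rfl | rfl | rfl
  · exact Or.inl rfl
  · exact Or.inr (Or.inl rfl)
  · exact absurd (hd 2 ⟨1, by norm_num⟩) (by simp)
  · exact Or.inr (Or.inr (Or.inl rfl))
  · exact absurd (hd 2 ⟨2, by norm_num⟩) (by simp)
  · exact Or.inr (Or.inr (Or.inr rfl))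
  · exact absurd (hd 2 ⟨4, by norm_num⟩) (by simp)
  · exact absurd (hd 2 ⟨5, by norm_num⟩) (by simp)
  · exact absurd (hd 2 ⟨10, by norm_num⟩) (by simp)
  · exact absurd (hd 2 ⟨20, by norm_num⟩) (by simp)

theorem z3_sq (x y : ZMod 3) (h : 2 * x ^ 2 = y ^ 2) : x = 0 ∧ y = 0 := by
  revert x y; decide

theorem z3_sq_one (x : ZMod 3) (h : x ≠ 0) : x ^ 2 = 1 := by
  revert x; decide

theorem sq_mod4 (x : ℕ) : x ^ 2 % 4 = 0 ∨ x ^ 2 % 4 = 1 := by
  have h := Nat.mod_lt x (by norm_num : 0 < 4)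
  rw [Nat.pow_mod]
  interval_cases (x % 4) <;> simp

theorem sq_mod8_of_odd (x : ℕ) (hx : x % 2 = 1) : x ^ 2 % 8 = 1 := by
  have h := Nat.mod_lt x (by norm_num : 0 < 8)
  have h2 : x % 8 % 2 = 1 := by omega
  rw [Nat.pow_mod]
  interval_cases (x % 8) <;> simp_all

theorem sq_mod8_of_even (x : ℕ) (hx : x % 2 = 0) : x ^ 2 % 8 = 0 ∨ x ^ 2 % 8 = 4 := by
  have h := Nat.mod_lt x (by norm_num : 0 < 8)
  have h2 : x % 8 % 2 = 0 := by omega
  rw [Nat.pow_mod]
  interval_cases (x % 8) <;> simp_all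

/-- the parity obstruction: the classes `d₂ = 2, 10` do not occur -/
theorem even_case (a s b c r d' : ℕ) (hd' : d' = 1 ∨ d' = 5) (hodd : a % 2 = 1)
    (hq : a ^ 2 + r = s ^ 2) (hr : r = 2 * d' * b ^ 2)
    (hm : 80 * a ^ 2 + 81 * r = 2 * d' * c ^ 2) : False := by
  have ha8 := sq_mod8_of_odd a hodd
  have hs8 : s ^ 2 % 8 = 1 := by
    rcases Nat.mod_two_eq_zero_or_one s with h0 | h1
    · rcases sq_mod8_of_even s h0 with h | h <;> rcases hd' with rfl | rfl <;> omega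
    · exact sq_mod8_of_odd s h1
  have hr8 : r % 8 = 0 := by omega
  have hb : b % 2 = 0 := by
    rcases Nat.mod_two_eq_zero_or_one b with h0 | h1
    · exact h0
    · have := sq_mod8_of_odd b h1
      rcases hd' with rfl | rfl <;> omega
  have hc : c % 2 = 0 := by
    rcases Nat.mod_two_eq_zero_or_one c with h0 | h1
    · exact h0
    · have := sq_mod8_of_odd c h1
      rcases hd' with rfl | rfl <;> omega
  obtain ⟨b₁, rfl⟩ := Nat.dvd_of_mod_eq_zero hb
  obtain ⟨c₁, rfl⟩ := Nat.dvd_of_mod_eq_zero hc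
  have e1 : (2 * b₁) ^ 2 = 4 * b₁ ^ 2 := by ring
  have e2 : (2 * c₁) ^ 2 = 4 * c₁ ^ 2 := by ring
  rw [e1] at hr
  rw [e2] at hm
  have hb4 := sq_mod4 b₁
  have hc4 := sq_mod4 c₁
  rcases hd' with rfl | rfl <;> omega

/-- The class theorem: the only classes are those of the `2`-torsion points. -/
theorem class_thm {p r n : ℕ} (hp : 0 < p) (hr : 0 < r) (hpr : Nat.Coprime p r)
    (h : p * (p + r) * r * (80 * p + 81 * r) = n ^ 2) :
    ∃ a e b c : ℕ, p = a ^ 2 ∧ p + r = e ^ 2 ∧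
      ((r = b ^ 2 ∧ 80 * p + 81 * r = c ^ 2) ∨
        (r = 5 * b ^ 2 ∧ 80 * p + 81 * r = 5 * c ^ 2)) := by
  have key : ∀ k : ℕ, k ∣ p → k ∣ r → k ∣ 1 := fun k h1 h2 => by
    have h3 := Nat.dvd_gcd h1 h2
    rwa [Nat.Coprime.gcd_eq_one hpr] at h3
  have cq_p : Nat.Coprime (p + r) p :=
    Nat.coprime_of_dvd' fun k _ h1 h2 => key k h2 ((Nat.dvd_add_right h2).mp h1)
  have cq_r : Nat.Coprime (p + r) r :=
    Nat.coprime_of_dvd' fun k _ h1 h2 => key k ((Nat.dvd_add_left h2).mp h1) h2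
  have cq_m : Nat.Coprime (p + r) (80 * p + 81 * r) :=
    Nat.coprime_of_dvd' fun k _ h1 h2 => by
      have h3 : k ∣ 80 * (p + r) + r := by
        have : 80 * (p + r) + r = 80 * p + 81 * r := by ring
        rw [this]; exact h2
      have h4 : k ∣ r := (Nat.dvd_add_right (Dvd.dvd.mul_left h1 80)).mp h3
      exact key k ((Nat.dvd_add_left h4).mp h1) h4
  have hcop : Nat.Coprime (p + r) (p * r * (80 * p + 81 * r)) :=
    (cq_p.mul_right cq_r).mul_right cq_m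
  -- step 1 : `p + r` is a square
  have h1 : (p + r) * (p * r * (80 * p + 81 * r)) = n ^ 2 := by rw [← h]; ring
  obtain ⟨d, s, t, -, hq, hrest⟩ := sq_decomp (by omega) h1
  have hd1 : d = 1 :=
    Nat.Coprime.eq_one_of_dvd (Nat.Coprime.coprime_dvd_left ⟨s ^ 2, hq⟩ hcop) ⟨t ^ 2, hrest⟩
  subst hd1
  rw [one_mul] at hq hrest
  -- step 2 : the squarefree part of `p`
  have h2 : p * (r * (80 * p + 81 * r)) = t ^ 2 := by rw [← hrest]; ring
  obtain ⟨d₁, a, t₁, hd₁, hpa, hrest₁⟩ := sq_decomp hp h2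
  have hd1p : d₁ ∣ p := ⟨a ^ 2, hpa⟩
  have hd1r : Nat.Coprime d₁ r := Nat.Coprime.coprime_dvd_left hd1p hpr
  have hd1m : d₁ ∣ 80 * p + 81 * r := hd1r.dvd_of_dvd_mul_left ⟨t₁ ^ 2, hrest₁⟩
  have hd181 : d₁ ∣ 81 :=
    hd1r.dvd_of_dvd_mul_right ((Nat.dvd_add_right (Dvd.dvd.mul_left hd1p 80)).mp hd1m)
  rcases squarefree_dvd_81 hd₁ hd181 with rfl | rfl
  · -- `d₁ = 1`
    rw [one_mul] at hpa hrest₁
    obtain ⟨d₂, b, c, hd₂, hrb, hmc⟩ := sq_decomp hr hrest₁
    have hd2r : d₂ ∣ r := ⟨b ^ 2, hrb⟩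
    have hd2p : Nat.Coprime d₂ p := Nat.Coprime.coprime_dvd_left hd2r hpr.symm
    have hd2m : d₂ ∣ 80 * p + 81 * r := ⟨c ^ 2, hmc⟩
    have hd280 : d₂ ∣ 80 :=
      hd2p.dvd_of_dvd_mul_right ((Nat.dvd_add_left (Dvd.dvd.mul_left hd2r 81)).mp hd2m)
    have hodd : r % 2 = 0 → a % 2 = 1 := by
      intro hr2
      rcases Nat.mod_two_eq_zero_or_one a with h0 | h1
      · exfalso
        have h3 : 2 ∣ p := by
          rw [hpa]
          exact Dvd.dvd.pow (Nat.dvd_of_mod_eq_zero h0) two_ne_zero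
        have := key 2 h3 (Nat.dvd_of_mod_eq_zero hr2)
        omega
      · exact h1
    rcases squarefree_dvd_80 hd₂ hd280 with rfl | rfl | rfl | rfl
    · exact ⟨a, s, b, c, hpa, hq, Or.inl ⟨by rw [hrb, one_mul], by rw [hmc, one_mul]⟩⟩
    · exfalso
      refine even_case a s b c r 1 (Or.inl rfl) (hodd (by omega)) ?_ (by rw [hrb]) ?_
      · rw [← hpa]; exact hq
      · rw [← hpa, hmc]
    · exact ⟨a, s, b, c, hpa, hq, Or.inr ⟨hrb, hmc⟩⟩
    · exfalso
      refine even_case a s b c r 5 (Or.inr rfl) (hodd (by omega)) ?_ (by rw [hrb]) ?_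
      · rw [← hpa]; exact hq
      · rw [← hpa, hmc]
  · -- `d₁ = 3` is impossible (three steps modulo `3`)
    exfalso
    have e80 : (80 : ZMod 3) = 2 := by decide
    have e27 : (27 : ZMod 3) = 0 := by decide
    have e240 : (240 : ZMod 3) = 0 := by decide
    have e3 : (3 : ZMod 3) = 0 := by decide
    have hr0 : (r : ZMod 3) ≠ 0 := by
      intro h0
      have h3 : 3 ∣ r := (ZMod.natCast_eq_zero_iff r 3).mp h0
      have := key 3 ⟨a ^ 2, hpa⟩ h3
      omega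
    have hr1 : (r : ZMod 3) = 1 := by
      have h3 := congrArg (Nat.cast : ℕ → ZMod 3) hq
      rw [hpa] at h3
      push_cast at h3
      rw [e3, zero_mul, zero_add] at h3
      have hs0 : (s : ZMod 3) ≠ 0 := by
        intro h0
        rw [h0] at h3
        exact hr0 (by rw [h3]; ring)
      rw [h3]
      exact z3_sq_one _ hs0
    have E1 : r * (80 * a ^ 2 + 27 * r) = t₁ ^ 2 := by
      have h3 : 3 * (r * (80 * a ^ 2 + 27 * r)) = 3 * t₁ ^ 2 := by
        rw [← hrest₁, hpa]; ring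
      exact Nat.eq_of_mul_eq_mul_left (by norm_num) h3
    have F1 := congrArg (Nat.cast : ℕ → ZMod 3) E1
    push_cast at F1
    rw [hr1, e80, e27] at F1
    obtain ⟨ha0, ht0⟩ := z3_sq (a : ZMod 3) (t₁ : ZMod 3) (by linear_combination F1)
    obtain ⟨a₁, rfl⟩ := (ZMod.natCast_eq_zero_iff a 3).mp ha0
    obtain ⟨t₂, rfl⟩ := (ZMod.natCast_eq_zero_iff t₁ 3).mp ht0
    have E2 : r * (80 * a₁ ^ 2 + 3 * r) = t₂ ^ 2 := by
      have h3 : 9 * (r * (80 * a₁ ^ 2 + 3 * r)) = 9 * t₂ ^ 2 := by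
        have : (3 * t₂) ^ 2 = 9 * t₂ ^ 2 := by ring
        rw [← this, ← E1]; ring
      exact Nat.eq_of_mul_eq_mul_left (by norm_num) h3
    have F2 := congrArg (Nat.cast : ℕ → ZMod 3) E2
    push_cast at F2
    rw [hr1, e80, e3] at F2
    obtain ⟨ha1, ht1⟩ := z3_sq (a₁ : ZMod 3) (t₂ : ZMod 3) (by linear_combination F2)
    obtain ⟨a₂, rfl⟩ := (ZMod.natCast_eq_zero_iff a₁ 3).mp ha1
    obtain ⟨t₃, rfl⟩ := (ZMod.natCast_eq_zero_iff t₂ 3).mp ht1
    have E3 : r * (240 * a₂ ^ 2 + r) = 3 * t₃ ^ 2 := by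
      have h3 : 3 * (r * (240 * a₂ ^ 2 + r)) = 3 * (3 * t₃ ^ 2) := by
        have : (3 * t₃) ^ 2 = 3 * (3 * t₃ ^ 2) := by ring
        rw [← this, ← E2]; ring
      exact Nat.eq_of_mul_eq_mul_left (by norm_num) h3
    have F3 := congrArg (Nat.cast : ℕ → ZMod 3) E3
    push_cast at F3
    rw [hr1, e240, e3] at F3
    have : (1 : ZMod 3) = 0 := by linear_combination F3
    exact absurd this (by decide)

/-- From a coprime pair with the square property to a solution of the normalised system. -/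
theorem quad_of_pair {p r n : ℕ} (hp : 0 < p) (hr : 0 < r) (hpr : Nat.Coprime p r)
    (h : p * (p + r) * r * (80 * p + 81 * r) = n ^ 2) :
    ∃ A B C e : ℕ, 0 < e ∧ 0 < C ∧ A ^ 2 = B ^ 2 + e ^ 2 ∧ A ^ 2 = C ^ 2 + 81 * e ^ 2 ∧
      A ^ 2 ≤ 81 * (p + r) := by
  obtain ⟨a, e₁, b, c, hpa, hqe, hcases⟩ := class_thm hp hr hpr h
  have ha : 0 < a := by
    rcases Nat.eq_zero_or_pos a with h0 | h0
    · subst h0; simp at hpa; omega
    · exact h0
  rcases hcases with ⟨hrb, hmc⟩ | ⟨hrb, hmc⟩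
  · have hb : 0 < b := by
      rcases Nat.eq_zero_or_pos b with h0 | h0
      · subst h0; simp at hrb; omega
      · exact h0
    have e1 : (9 * e₁) ^ 2 = 81 * e₁ ^ 2 := by ring
    have e2 : (9 * b) ^ 2 = 81 * b ^ 2 := by ring
    refine ⟨9 * e₁, c, 9 * b, a, ha, by omega, ?_, ?_, ?_⟩
    · rw [e1]; omega
    · rw [e1, e2]; omega
    · rw [e1]; omega
  · have hb : 0 < b := by
      rcases Nat.eq_zero_or_pos b with h0 | h0
      · subst h0; simp at hrb; omega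
      · exact h0
    have e1 : (4 * e₁) ^ 2 = 16 * e₁ ^ 2 := by ring
    have e2 : (4 * a) ^ 2 = 16 * a ^ 2 := by ring
    refine ⟨c, 4 * e₁, 4 * a, b, hb, by omega, ?_, ?_, ?_⟩
    · rw [e1]; omega
    · rw [e2]; omega
    · omega

/-- Fermat descent: the normalised system has no solution. -/
theorem no_sol : ∀ A B C e : ℕ, 0 < e → 0 < C → A ^ 2 = B ^ 2 + e ^ 2 →
    A ^ 2 = C ^ 2 + 81 * e ^ 2 → False := by
  intro A
  induction A using Nat.strong_induction_on with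
  | _ A ih =>
    intro B C e he hC h1 h2
    have hBA : B < A := by nlinarith
    have hCB : C < B := by nlinarith
    have h9 : 9 * e < A := by nlinarith
    have he18 : 18 ≤ e := by
      rcases Nat.lt_or_ge e 18 with hlt | hge
      swap
      · exact hge
      exfalso
      obtain ⟨k, rfl⟩ : ∃ k, A = B + k := ⟨A - B, by omega⟩
      have hk : 0 < k := by omega
      have h3 : e ^ 2 = k * (2 * B + k) := by nlinarith
      have h4 : e * e ≤ 17 * e := Nat.mul_le_mul_right e (by omega)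
      rcases Nat.lt_or_ge k 2 with hk2 | hk2
      · have hk1 : k = 1 := by omega
        subst hk1
        nlinarith
      · nlinarith
    have hA : 162 < A := by omega
    obtain ⟨r, rfl⟩ : ∃ r, B = C + r := ⟨B - C, by omega⟩
    have hr : 0 < r := by omega
    obtain ⟨p, hpdef⟩ : ∃ p, p = A + C := ⟨_, rfl⟩
    have hp : 0 < p := by omega
    have hK : (80 * p + 81 * r) * e ^ 2 = p * (p + r) * r := by
      rw [hpdef]
      zify at h1 h2 ⊢
      linear_combination ((A : ℤ) + C) * h1 - ((A : ℤ) + C + r) * h2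
    have hn : p * (p + r) * r * (80 * p + 81 * r) = ((80 * p + 81 * r) * e) ^ 2 := by
      rw [← hK]; ring
    obtain ⟨p₀, r₀, hcop, hp₀, hr₀⟩ := Nat.exists_coprime p r
    have hg0 : 0 < Nat.gcd p r := Nat.gcd_pos_of_pos_left r hp
    generalize Nat.gcd p r = g at hp₀ hr₀ hg0
    have hp₀0 : 0 < p₀ := by
      rcases Nat.eq_zero_or_pos p₀ with h0 | h0
      · subst h0; simp at hp₀; omega
      · exact h0
    have hr₀0 : 0 < r₀ := by
      rcases Nat.eq_zero_or_pos r₀ with h0 | h0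
      · subst h0; simp at hr₀; omega
      · exact h0
    have h5 : (g ^ 2) ^ 2 * (p₀ * (p₀ + r₀) * r₀ * (80 * p₀ + 81 * r₀)) =
        ((80 * p + 81 * r) * e) ^ 2 := by
      rw [← hn, hp₀, hr₀]; ring
    have h6 : g ^ 2 ∣ (80 * p + 81 * r) * e :=
      (Nat.pow_dvd_pow_iff two_ne_zero).mp ⟨_, h5.symm⟩
    obtain ⟨n₀, hn₀⟩ := h6
    have h7 : p₀ * (p₀ + r₀) * r₀ * (80 * p₀ + 81 * r₀) = n₀ ^ 2 := by
      have h8 : (g ^ 2) ^ 2 * (p₀ * (p₀ + r₀) * r₀ * (80 * p₀ + 81 * r₀)) =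
          (g ^ 2) ^ 2 * n₀ ^ 2 := by
        rw [h5, hn₀]; ring
      exact Nat.eq_of_mul_eq_mul_left (by positivity) h8
    obtain ⟨A', B', C', e', he', hC', h1', h2', hle⟩ := quad_of_pair hp₀0 hr₀0 hcop h7
    have hle2 : p₀ + r₀ ≤ p + r := by
      have h9 : p₀ ≤ p₀ * g := Nat.le_mul_of_pos_right p₀ hg0
      have h10 : r₀ ≤ r₀ * g := Nat.le_mul_of_pos_right r₀ hg0
      omega
    have hlt : A' < A := by
      rcases Nat.lt_or_ge A' A with hlt | hge
      · exact hlt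
      exfalso
      have h11 : A * A ≤ A' * A' := Nat.mul_le_mul hge hge
      have h12 : 162 * A < A * A := Nat.mul_lt_mul_of_pos_right hA (by omega)
      nlinarith
    exact ih A' hlt B' C' e' he' hC' h1' h2'

/-- no coprime pair has the square property -/
theorem no_pair {p r n : ℕ} (hp : 0 < p) (hr : 0 < r) (hpr : Nat.Coprime p r)
    (h : p * (p + r) * r * (80 * p + 81 * r) = n ^ 2) : False := by
  obtain ⟨A, B, C, e, he, hC, h1, h2, -⟩ := quad_of_pair hp hr hpr h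
  exact no_sol A B C e he hC h1 h2

theorem core01 (X Y : ℚ) (h0 : 0 < X) (h1 : X < 1) (_hY : Y ≠ 0)
    (h : Y ^ 2 = X * (X - 1) * (X - 81)) : False := by
  have hnum : 0 < X.num := Rat.num_pos.mpr h0
  have hlt : X.num < X.den := Rat.num_lt_denom_iff.mpr h1
  obtain ⟨p, hp⟩ : ∃ p : ℕ, (p : ℤ) = X.num := ⟨X.num.toNat, Int.toNat_of_nonneg hnum.le⟩
  have hp0 : 0 < p := by omega
  have hpq : p < X.den := by omega
  obtain ⟨r, hr⟩ : ∃ r : ℕ, X.den = p + r := ⟨X.den - p, by omega⟩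
  have hr0 : 0 < r := by omega
  have hcop : Nat.Coprime p r := by
    have h2 : Nat.Coprime X.num.natAbs X.den := X.reduced
    have h3 : X.num.natAbs = p := by omega
    rw [h3, hr, Nat.add_comm] at h2
    exact (Nat.coprime_add_self_right.mp h2)
  have hX : X = (p : ℚ) / ((p : ℚ) + r) := by
    have h4 := (Rat.num_div_den X).symm
    rw [← hp, hr] at h4
    push_cast at h4
    exact h4
  have hpr0 : ((p : ℚ) + r) ≠ 0 := by positivity
  have hsq : IsSquare ((p * (p + r) * r * (80 * p + 81 * r) : ℕ) : ℚ) := by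
    refine ⟨Y * ((p : ℚ) + r) ^ 2, ?_⟩
    have h5 : (Y * ((p : ℚ) + r) ^ 2) * (Y * ((p : ℚ) + r) ^ 2) = Y ^ 2 * ((p : ℚ) + r) ^ 4 := by
      ring
    rw [h5, h, hX]
    push_cast
    field_simp
    ring
  obtain ⟨n, hn⟩ := Rat.isSquare_natCast_iff.mp hsq
  exact no_pair hp0 hr0 hcop (by rw [hn]; ring)

end Descent

/-- **Descent theorem.** The curve `Y ^ 2 = X (X - 1) (X - 81)` has no rational point with
`Y ≠ 0`. -/
theorem eq_zero_of_sq_eq (X Y : ℚ) (h : Y ^ 2 = X * (X - 1) * (X - 81)) : Y = 0 := by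
  by_contra hY
  have hpos : 0 < X * (X - 1) * (X - 81) := by
    rw [← h]; positivity
  rcases le_or_gt X 0 with hX0 | hX0
  · nlinarith [mul_nonneg (sub_nonneg.mpr (by linarith : X ≤ 1)) (sub_nonneg.mpr (by linarith : X ≤ 81)),
      mul_nonneg (neg_nonneg.mpr hX0) (mul_nonneg (sub_nonneg.mpr (by linarith : X ≤ 1)) (sub_nonneg.mpr (by linarith : X ≤ 81)))]
  rcases lt_or_ge X 1 with hX1 | hX1
  · exact Descent.core01 X Y hX0 hX1 hY h
  rcases le_or_gt X 81 with hX81 | hX81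
  · nlinarith [mul_nonneg (mul_nonneg hX0.le (sub_nonneg.mpr hX1)) (sub_nonneg.mpr hX81)]
  · have hXne : X ≠ 0 := hX0.ne'
    refine Descent.core01 (81 / X) (81 * Y / X ^ 2) (by positivity) ?_ ?_ ?_
    · rw [div_lt_one hX0]; exact hX81
    · exact div_ne_zero (mul_ne_zero (by norm_num) hY) (pow_ne_zero 2 hXne)
    · rw [div_pow, mul_pow, h]
      field_simp
      ring

end Fermat.Agent.S51
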