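/-
Diophantine core of S51: the only rational points on the modular curve `X₀(15)` (in three
different coordinate systems) are the obvious ones.  Everything is reduced to the descent
theorem `eq_zero_of_sq_eq` of `Descent.lean` (the curve `Y ^ 2 = X (X - 1) (X - 81)` has rank 0).
-/
import Fermat.Agent.S51.Descent

namespace Fermat.Agent.S51

namespace Dioph

/-- `5` is not a rational square. -/
theorem not_sq_five (x : ℚ) (h : x ^ 2 = 5) : False := by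
  have h1 : IsSquare ((5 : ℕ) : ℚ) := ⟨x, by push_cast; rw [← h]; ring⟩
  rw [Rat.isSquare_natCast_iff] at h1
  obtain ⟨r, hr⟩ := h1
  have h3 : r < 3 := by nlinarith
  interval_cases r <;> omega

/-- The point of `Y ^ 2 = X (X - 1) (X - 81)` attached to a point of the quartic
`z ^ 2 = 125 r ^ 4 + 14 r ^ 2 + 5`; here `w` stands for `5 r ^ 2 - 1`. -/
theorem quartic_aux (r z w : ℚ) (hr : r ≠ 0) (hw0 : w ≠ 0) (hw : w = 5 * r ^ 2 - 1)
    (h : z ^ 2 = 125 * r ^ 4 + 14 * r ^ 2 + 5) :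
    (5 * (5 * r ^ 2 + 1) * (25 * r ^ 4 + 6 * r ^ 2 + 1) * (25 * r ^ 2 - 1) * (r ^ 2 - 1)
        * z / (8 * r ^ 3 * w ^ 3)) ^ 2
      = ((5 * r ^ 2 + 1) ^ 2 * (125 * r ^ 4 + 14 * r ^ 2 + 5) / (4 * r ^ 2 * w ^ 2))
        * ((5 * r ^ 2 + 1) ^ 2 * (125 * r ^ 4 + 14 * r ^ 2 + 5) / (4 * r ^ 2 * w ^ 2) - 1)
        * ((5 * r ^ 2 + 1) ^ 2 * (125 * r ^ 4 + 14 * r ^ 2 + 5) / (4 * r ^ 2 * w ^ 2) - 81) := by
  rw [div_pow, mul_pow _ z, h]
  field_simp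
  subst hw
  ring

/-- The genus one quartic `z ^ 2 = 125 r ^ 4 + 14 r ^ 2 + 5` only has the rational points with
`r ^ 2 = 1` or `r ^ 2 = 1 / 25` (apart from `r = 0`). -/
theorem quartic (r z : ℚ) (hr : r ≠ 0) (h : z ^ 2 = 125 * r ^ 4 + 14 * r ^ 2 + 5) :
    r ^ 2 = 1 ∨ r ^ 2 = 1 / 25 := by
  have h5 : (5 * r ^ 2 - 1 : ℚ) ≠ 0 := fun h0 =>
    not_sq_five (5 * r) (by linear_combination 5 * h0)
  have hY0 := eq_zero_of_sq_eq _ _ (quartic_aux r z (5 * r ^ 2 - 1) hr h5 rfl h)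
  have hden : (8 * r ^ 3 * (5 * r ^ 2 - 1) ^ 3 : ℚ) ≠ 0 :=
    mul_ne_zero (mul_ne_zero (by norm_num) (pow_ne_zero 3 hr)) (pow_ne_zero 3 h5)
  rw [div_eq_zero_iff] at hY0
  rcases hY0 with hY0 | hY0
  swap
  · exact absurd hY0 hden
  have hz : z ≠ 0 := by
    intro hz
    rw [hz] at h
    nlinarith [sq_nonneg r, sq_nonneg (r ^ 2)]
  have h1 : (5 * r ^ 2 + 1 : ℚ) ≠ 0 := by positivity
  have h2 : (25 * r ^ 4 + 6 * r ^ 2 + 1 : ℚ) ≠ 0 := by positivity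
  rcases mul_eq_zero.mp hY0 with hY1 | hY1
  swap
  · exact absurd hY1 hz
  rcases mul_eq_zero.mp hY1 with hY2 | hY2
  swap
  · left; linear_combination hY2
  rcases mul_eq_zero.mp hY2 with hY3 | hY3
  swap
  · right; linear_combination (1 / 25) * hY3
  rcases mul_eq_zero.mp hY3 with hY4 | hY4
  swap
  · exact absurd hY4 h2
  rcases mul_eq_zero.mp hY4 with hY5 | hY5
  · norm_num at hY5
  · exact absurd hY5 h1

theorem sq_div_aux (s Q R : ℚ) (hQ0 : Q ≠ 0) (hs : s ^ 2 = R * Q) : (s / Q) ^ 2 = R / Q := by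
  rw [div_pow, hs]
  field_simp

/-- The point of the quartic attached to a point of `X₀(15)`; `Q` stands for
`u ^ 2 + 11 u - 1` and `s` for `2 u v + u ^ 2 + 5 u - 1`. -/
theorem x015_uv_aux (u s Q : ℚ) (hQ0 : Q ≠ 0) (hQ : Q = u ^ 2 + 11 * u - 1)
    (hs : s ^ 2 = (u ^ 2 - u - 1) * Q) :
    (12 * (u ^ 2 + 1) / Q) ^ 2 = 125 * (s / Q) ^ 4 + 14 * (s / Q) ^ 2 + 5 := by
  have hr2 : (s / Q) ^ 2 = (u ^ 2 - u - 1) / Q := sq_div_aux s Q _ hQ0 hs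
  have hr4 : (s / Q) ^ 4 = ((u ^ 2 - u - 1) / Q) ^ 2 := by
    rw [← hr2]; ring
  rw [hr4, hr2]
  field_simp
  subst hQ
  ring

/-- Rational points of `X₀(15)` in the eta-quotient coordinates `(u, v)`. -/
theorem x015_uv (u v : ℚ) (h : u ^ 2 * v + u * v ^ 2 + 5 * u * v + 9 * u - v = 0) :
    u = 0 ∨ u = 2 ∨ u = -1 / 2 := by
  have hQ1 : u ^ 2 - u - 1 ≠ 0 := fun h0 =>
    not_sq_five (2 * u - 1) (by linear_combination 4 * h0)
  have hQ2 : u ^ 2 + 11 * u - 1 ≠ 0 := fun h0 =>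
    not_sq_five ((2 * u + 11) / 5) (by linear_combination (4 / 25) * h0)
  have hs : (2 * u * v + u ^ 2 + 5 * u - 1) ^ 2 = (u ^ 2 - u - 1) * (u ^ 2 + 11 * u - 1) := by
    linear_combination (4 * u) * h
  have hs0 : 2 * u * v + u ^ 2 + 5 * u - 1 ≠ 0 := by
    intro h0
    rw [h0] at hs
    exact mul_ne_zero hQ1 hQ2 (by linear_combination -hs)
  have hq := quartic ((2 * u * v + u ^ 2 + 5 * u - 1) / (u ^ 2 + 11 * u - 1))
    (12 * (u ^ 2 + 1) / (u ^ 2 + 11 * u - 1)) (div_ne_zero hs0 hQ2)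
    (x015_uv_aux u _ _ hQ2 rfl hs)
  rw [sq_div_aux _ _ _ hQ2 hs] at hq
  rcases hq with hq | hq
  · left
    rw [div_eq_one_iff_eq hQ2] at hq
    linear_combination (-1 / 12) * hq
  · right
    rw [div_eq_div_iff hQ2 (by norm_num)] at hq
    have h3 : (2 * u + 1) * (u - 2) = 0 := by linear_combination (1 / 12) * hq
    rcases mul_eq_zero.mp h3 with h4 | h4
    · right; linear_combination (1 / 2) * h4
    · left; linear_combination h4

/-- Passage from the `(u, t)`-model of `X₀(15)` to the `(u, v)`-model; `q` stands for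
`u ^ 2 + 4 u - 1`. -/
theorem x015_ut_aux (u t q : ℚ) (ht : t ≠ 0) (hq0 : q ≠ 0) (hq : q = u ^ 2 + 4 * u - 1) :
    u ^ 2 * (-(125 / t + u ^ 3 + 9 * u ^ 2 + 9 * u) / q)
      + u * (-(125 / t + u ^ 3 + 9 * u ^ 2 + 9 * u) / q) ^ 2
      + 5 * u * (-(125 / t + u ^ 3 + 9 * u ^ 2 + 9 * u) / q) + 9 * u
      - (-(125 / t + u ^ 3 + 9 * u ^ 2 + 9 * u) / q)
      = 125 * (u ^ 3 * t ^ 2 + (u ^ 4 + 9 * u ^ 3 + 9 * u - 1) * t + 125 * u) / (t ^ 2 * q ^ 2) := by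
  field_simp
  subst hq
  ring

/-- Rational points of `X₀(15)` in the coordinates `(u, t)`, `t` the Hauptmodul of `X₀(5)`. -/
theorem x015_ut (u t : ℚ) (ht : t ≠ 0)
    (h : u ^ 3 * t ^ 2 + (u ^ 4 + 9 * u ^ 3 + 9 * u - 1) * t + 125 * u = 0) :
    t = -10 ∨ t = -25 / 8 ∨ t = -25 / 2 ∨ t = -40 := by
  have hq : u ^ 2 + 4 * u - 1 ≠ 0 := fun h0 =>
    not_sq_five (u + 2) (by linear_combination h0)
  have hF := x015_ut_aux u t (u ^ 2 + 4 * u - 1) ht hq rfl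
  rw [h, mul_zero, zero_div] at hF
  rcases x015_uv u _ hF with hu | hu | hu
  · exfalso
    rw [hu] at h
    apply ht
    linear_combination -h
  · rw [hu] at h
    have h3 : (t + 10) * (8 * t + 25) = 0 := by linear_combination h
    rcases mul_eq_zero.mp h3 with h4 | h4
    · left; linear_combination h4
    · right; left; linear_combination (1 / 8) * h4
  · rw [hu] at h
    have h3 : (2 * t + 25) * (t + 40) = 0 := by linear_combination (-16) * h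
    rcases mul_eq_zero.mp h3 with h4 | h4
    · right; right; left; linear_combination (1 / 2) * h4
    · right; right; right; linear_combination h4

/-- Numerator of the function `u` on `X₀(15)` in terms of the Hauptmoduln `h` of `X₀(3)` and
`t` of `X₀(5)`. -/
def uNum (h t : ℚ) : ℚ :=
  -h ^ 3 * t ^ 2 - 3 * h ^ 3 * t - 33 * h ^ 2 * t ^ 2 - 99 * h ^ 2 * t - h * t ^ 4
  - 20 * h * t ^ 3 - 281 * h * t ^ 2 - 613 * h * t - 25 * h + t ^ 7 + 33 * t ^ 6 + 405 * t ^ 5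
  + 2230 * t ^ 4 + 5175 * t ^ 3 + 3582 * t ^ 2 + 146 * t

/-- Denominator of the function `u`; equals `-(t ^ 2 + 4 t - 1) (t ^ 2 + 10 t + 5) ^ 2`. -/
def uDen (t : ℚ) : ℚ :=
  -t ^ 6 - 24 * t ^ 5 - 189 * t ^ 4 - 520 * t ^ 3 - 315 * t ^ 2 + 25

/-- Coefficient of `h ^ 0` in the cofactor. -/
def cof0 (t : ℚ) : ℚ :=
  t ^ 20 + 89 * t ^ 19 + 3758 * t ^ 18 + 98832 * t ^ 17 + 1784673 * t ^ 16 + 23082897 * t ^ 15
  + 217759011 * t ^ 14 + 1506336741 * t ^ 13 + 7615594356 * t ^ 12 + 27839822704 * t ^ 11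
  + 72213673751 * t ^ 10 + 129043012358 * t ^ 9 + 151785366015 * t ^ 8 + 109235961909 * t ^ 7
  + 42040798131 * t ^ 6 + 5700079737 * t ^ 5 - 900927636 * t ^ 4 - 380255475 * t ^ 3
  - 203125 * t ^ 2 + 9625000 * t + 390625

/-- Coefficient of `h ^ 1` in the cofactor. -/
def cof1 (t : ℚ) : ℚ :=
  33 * t ^ 18 + 2373 * t ^ 17 + 75804 * t ^ 16 + 1416525 * t ^ 15 + 17160651 * t ^ 14
  + 141090672 * t ^ 13 + 799970850 * t ^ 12 + 3105332025 * t ^ 11 + 7956683499 * t ^ 10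
  + 12175120650 * t ^ 9 + 7413507432 * t ^ 8 - 7049799777 * t ^ 7 - 15239887371 * t ^ 6
  - 8939928192 * t ^ 5 - 1597694214 * t ^ 4 - 65926725 * t ^ 3 + 22132500 * t ^ 2 + 2390625 * t

/-- Coefficient of `h ^ 2` in the cofactor. -/
def cof2 (t : ℚ) : ℚ :=
  t ^ 18 + 72 * t ^ 17 + 2304 * t ^ 16 + 43019 * t ^ 15 + 516409 * t ^ 14 + 4107696 * t ^ 13
  + 21012062 * t ^ 12 + 57642539 * t ^ 11 - 17864955 * t ^ 10 - 802866008 * t ^ 9
  - 3097980652 * t ^ 8 - 5825051619 * t ^ 7 - 5438771813 * t ^ 6 - 1769243276 * t ^ 5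
  + 331245318 * t ^ 4 + 105898125 * t ^ 3 + 10108750 * t ^ 2 + 187500 * t

/-- Coefficient of `h ^ 3` in the cofactor. -/
def cof3 (t : ℚ) : ℚ :=
  -5 * t ^ 15 - 295 * t ^ 14 - 10174 * t ^ 13 - 219610 * t ^ 12 - 2895183 * t ^ 11
  - 23406469 * t ^ 10 - 116448660 * t ^ 9 - 348362620 * t ^ 8 - 575340467 * t ^ 7
  - 376211233 * t ^ 6 + 170333234 * t ^ 5 + 283057398 * t ^ 4 + 34331175 * t ^ 3 + 1198125 * t ^ 2

/-- Coefficient of `h ^ 4` in the cofactor. -/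
def cof4 (t : ℚ) : ℚ :=
  -129 * t ^ 13 - 5412 * t ^ 12 - 93765 * t ^ 11 - 865782 * t ^ 10 - 4576350 * t ^ 9
  - 13188558 * t ^ 8 - 14421558 * t ^ 7 + 20715060 * t ^ 6 + 72259095 * t ^ 5 + 57526350 * t ^ 4
  + 3870675 * t ^ 3 + 33750 * t ^ 2

/-- Coefficient of `h ^ 5` in the cofactor. -/
def cof5 (t : ℚ) : ℚ :=
  -2 * t ^ 13 - 84 * t ^ 12 - 1458 * t ^ 11 - 13328 * t ^ 10 - 66660 * t ^ 9 - 101256 * t ^ 8
  + 677612 * t ^ 7 + 3885072 * t ^ 6 + 7752294 * t ^ 5 + 5687388 * t ^ 4 + 174150 * t ^ 3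

/-- Coefficient of `h ^ 6` in the cofactor. -/
def cof6 (t : ℚ) : ℚ :=
  4 * t ^ 10 + 116 * t ^ 9 + 4760 * t ^ 8 + 48532 * t ^ 7 + 206308 * t ^ 6 + 400716 * t ^ 5
  + 296352 * t ^ 4 + 2700 * t ^ 3

/-- Coefficient of `h ^ 7` in the cofactor. -/
def cof7 (t : ℚ) : ℚ :=
  96 * t ^ 8 + 1152 * t ^ 7 + 5184 * t ^ 6 + 10368 * t ^ 5 + 7776 * t ^ 4

/-- Coefficient of `h ^ 8` in the cofactor. -/
def cof8 (t : ℚ) : ℚ :=
  t ^ 8 + 12 * t ^ 7 + 54 * t ^ 6 + 108 * t ^ 5 + 81 * t ^ 4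

/-- The cofactor in the identity `cofactor_identity`. -/
def cof (h t : ℚ) : ℚ :=
  cof0 t + h * cof1 t + h ^ 2 * cof2 t + h ^ 3 * cof3 t + h ^ 4 * cof4 t + h ^ 5 * cof5 t
  + h ^ 6 * cof6 t + h ^ 7 * cof7 t + h ^ 8 * cof8 t

theorem uDen_eq (t : ℚ) : uDen t = -((t ^ 2 + 4 * t - 1) * (t ^ 2 + 10 * t + 5) ^ 2) := by
  unfold uDen; ring

theorem uDen_ne_zero (t : ℚ) : uDen t ≠ 0 := by
  rw [uDen_eq]
  have h1 : t ^ 2 + 4 * t - 1 ≠ 0 := fun h0 =>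
    not_sq_five (t + 2) (by linear_combination h0)
  have h2 : t ^ 2 + 10 * t + 5 ≠ 0 := fun h0 =>
    not_sq_five ((t + 5) / 2) (by linear_combination (1 / 4) * h0)
  exact neg_ne_zero.mpr (mul_ne_zero h1 (pow_ne_zero 2 h2))

/-- The function `u = uNum / uDen` satisfies the `(u, t)`-equation of `X₀(15)` modulo the
`(h, t)`-equation. -/
theorem cofactor_identity (h t : ℚ) :
    uNum h t ^ 3 * uDen t * t ^ 2
      + (uNum h t ^ 4 + 9 * uNum h t ^ 3 * uDen t + 9 * uNum h t * uDen t ^ 3 - uDen t ^ 4) * t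
      + 125 * uNum h t * uDen t ^ 3
    = cof h t * (t * (h + 27) * (h + 3) ^ 3 - h * (t ^ 2 + 10 * t + 5) ^ 3) := by
  unfold uNum uDen cof cof0 cof1 cof2 cof3 cof4 cof5 cof6 cof7 cof8
  ring

theorem ut_of_ht (h t : ℚ) (hC : t * (h + 27) * (h + 3) ^ 3 = h * (t ^ 2 + 10 * t + 5) ^ 3) :
    ∃ u : ℚ, u ^ 3 * t ^ 2 + (u ^ 4 + 9 * u ^ 3 + 9 * u - 1) * t + 125 * u = 0 := by
  have hD := uDen_ne_zero t
  have key := cofactor_identity h t
  rw [hC, sub_self, mul_zero] at key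
  refine ⟨uNum h t / uDen t, ?_⟩
  have h4 : (uNum h t / uDen t) ^ 3 * t ^ 2
      + ((uNum h t / uDen t) ^ 4 + 9 * (uNum h t / uDen t) ^ 3 + 9 * (uNum h t / uDen t) - 1) * t
      + 125 * (uNum h t / uDen t)
      = (uNum h t ^ 3 * uDen t * t ^ 2
      + (uNum h t ^ 4 + 9 * uNum h t ^ 3 * uDen t + 9 * uNum h t * uDen t ^ 3 - uDen t ^ 4) * t
      + 125 * uNum h t * uDen t ^ 3) / uDen t ^ 4 := by
    field_simp
  rw [h4, key, zero_div]

/-- `5` is prime in `ℤ`. -/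
theorem prime_five : Prime (5 : ℤ) := by
  have := Nat.prime_iff_prime_int.mp Nat.prime_five
  exact_mod_cast this

/-- Integer endgame: an equation `a * c ^ 3 = 5 * (b * Δ)` or `a * c ^ 3 = 25 * (b * Δ)` with
`a`, `b` prime to `5` forces `5 ∣ c` and `5 ∣ Δ`. -/
theorem five_dvd_of_eq (c Δ a b : ℤ) (ha : IsCoprime (5 : ℤ) a) (hb : IsCoprime (5 : ℤ) b)
    (h : a * c ^ 3 = 5 * (b * Δ) ∨ a * c ^ 3 = 25 * (b * Δ)) : (5 : ℤ) ∣ c ∧ (5 : ℤ) ∣ Δ := by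
  have h1 : (5 : ℤ) ∣ a * c ^ 3 := by
    rcases h with h | h
    · exact ⟨b * Δ, h⟩
    · exact ⟨5 * (b * Δ), by rw [h]; ring⟩
  have h2 : (5 : ℤ) ∣ c := prime_five.dvd_of_dvd_pow (ha.dvd_of_dvd_mul_left h1)
  refine ⟨h2, ?_⟩
  obtain ⟨k, rfl⟩ := h2
  have h3 : (5 : ℤ) ∣ b * Δ := by
    rcases h with h | h
    · exact ⟨5 * (a * k ^ 3), by linarith⟩
    · exact ⟨a * k ^ 3, by linarith⟩
  exact hb.dvd_of_dvd_mul_left h3

end Dioph

/-- **Diophantine core of S51.**  If a rational `j`-invariant is of the form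
`(h + 27) (h + 3) ^ 3 / h` (a rational `3`-isogeny) and of the form
`(t ^ 2 + 10 t + 5) ^ 3 / t` (a rational `5`-isogeny), then `t` is one of the four values
corresponding to the four non-cuspidal rational points of `X₀(15)`. -/
theorem j_of_three_five (j h t : ℚ) (hh : h ≠ 0) (ht : t ≠ 0)
    (h3 : j * h = (h + 27) * (h + 3) ^ 3) (h5 : j * t = (t ^ 2 + 10 * t + 5) ^ 3) :
    t = -10 ∨ t = -25 / 8 ∨ t = -25 / 2 ∨ t = -40 := by
  have _ := hh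
  obtain ⟨u, hu⟩ := Dioph.ut_of_ht h t (by linear_combination h * h5 - t * h3)
  exact Dioph.x015_ut u t ht hu

/-- **Endgame of S51.**  The four exceptional values of `t` are incompatible with a
semistable integral model: they force `5 ∣ c₄` and `5 ∣ Δ`. -/
theorem semistable_endgame (c4 Δ : ℤ) (hΔ : Δ ≠ 0)
    (hss : ∀ p : ℕ, p.Prime → (p : ℤ) ∣ Δ → ¬ (p : ℤ) ∣ c4) (t : ℚ)
    (ht : t = -10 ∨ t = -25 / 8 ∨ t = -25 / 2 ∨ t = -40)
    (h : (c4 : ℚ) ^ 3 * t = (Δ : ℚ) * (t ^ 2 + 10 * t + 5) ^ 3) : False := by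
  have _ := hΔ
  have key : (5 : ℤ) ∣ c4 ∧ (5 : ℤ) ∣ Δ := by
    rcases ht with rfl | rfl | rfl | rfl
    · have h2 : (-2 : ℚ) * (c4 : ℚ) ^ 3 = 25 * (1 * (Δ : ℚ)) := by
        linear_combination (1 / 5) * h
      have h1 : (-2 : ℤ) * c4 ^ 3 = 25 * (1 * Δ) := by exact_mod_cast h2
      exact Dioph.five_dvd_of_eq c4 Δ (-2) 1 (by norm_num) (by norm_num) (Or.inr h1)
    · have h2 : (32768 : ℚ) * (c4 : ℚ) ^ 3 = 5 * (9393931 * (Δ : ℚ)) := by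
        linear_combination (-262144 / 25) * h
      have h1 : (32768 : ℤ) * c4 ^ 3 = 5 * (9393931 * Δ) := by exact_mod_cast h2
      exact Dioph.five_dvd_of_eq c4 Δ 32768 9393931 (by norm_num) (by norm_num) (Or.inl h1)
    · have h2 : (-32 : ℚ) * (c4 : ℚ) ^ 3 = 5 * (24389 * (Δ : ℚ)) := by
        linear_combination (64 / 25) * h
      have h1 : (-32 : ℤ) * c4 ^ 3 = 5 * (24389 * Δ) := by exact_mod_cast h2
      exact Dioph.five_dvd_of_eq c4 Δ (-32) 24389 (by norm_num) (by norm_num) (Or.inl h1)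
    · have h2 : (-8 : ℚ) * (c4 : ℚ) ^ 3 = 25 * (13997521 * (Δ : ℚ)) := by
        linear_combination (1 / 5) * h
      have h1 : (-8 : ℤ) * c4 ^ 3 = 25 * (13997521 * Δ) := by exact_mod_cast h2
      exact Dioph.five_dvd_of_eq c4 Δ (-8) 13997521 (by norm_num) (by norm_num) (Or.inr h1)
  exact hss 5 Nat.prime_five (by exact_mod_cast key.2) (by exact_mod_cast key.1)

end Fermat.Agent.S51
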