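/-
S51 package (D): a proper nonzero submodule of a small `ZMod p`-module is a line;
elements of a Galois extension of `ℚ` fixed by the whole Galois group are rational.
-/
import Mathlib

set_option autoImplicit false

namespace Fermat.Agent.S51

/-- In a `ZMod p`-module with at most `p²` elements, a submodule that is neither `⊥` nor `⊤`
consists of the multiples of a single nonzero element. -/
theorem exists_generator_of_proper {p : ℕ} [Fact p.Prime] {V : Type*} [AddCommGroup V]
    [Module (ZMod p) V] [Finite V] (hcard : Nat.card V ≤ p ^ 2) (N : Submodule (ZMod p) V)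
    (h0 : N ≠ ⊥) (h1 : N ≠ ⊤) :
    ∃ P ∈ N, P ≠ 0 ∧ ∀ Q ∈ N, ∃ k : ℕ, Q = k • P := by
  have hp : 1 < p := (Fact.out : p.Prime).one_lt
  have : Module.Finite (ZMod p) V := Module.Finite.of_finite
  have hV : Module.finrank (ZMod p) V ≤ 2 := by
    have h := Module.natCard_eq_pow_finrank (K := ZMod p) (V := V)
    rw [Nat.card_zmod] at h
    rw [h] at hcard
    exact (Nat.pow_le_pow_iff_right hp).1 hcard
  have hN2 : Module.finrank (ZMod p) N < Module.finrank (ZMod p) V :=
    Submodule.finrank_lt h1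
  have hN0 : 0 < Module.finrank (ZMod p) N := by
    rw [Module.finrank_pos_iff]
    exact (Submodule.nontrivial_iff_ne_bot).2 h0
  have hN1 : Module.finrank (ZMod p) N = 1 := by omega
  obtain ⟨v, hv, hgen⟩ := finrank_eq_one_iff'.1 hN1
  refine ⟨v, v.2, fun h => hv (Subtype.ext h), fun Q hQ => ?_⟩
  obtain ⟨c, hc⟩ := hgen ⟨Q, hQ⟩
  refine ⟨c.val, ?_⟩
  have h2 : (c • v : N).1 = Q := congrArg Subtype.val hc
  rw [← h2, Submodule.coe_smul]
  conv_lhs => rw [← ZMod.natCast_zmod_val c]
  rw [Nat.cast_smul_eq_nsmul]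

/-- An element of a Galois extension `K/ℚ` fixed by every automorphism is rational. -/
theorem exists_rat_of_fixed {K : Type*} [Field K] [Algebra ℚ K] [IsGalois ℚ K] (x : K)
    (h : ∀ σ : K ≃ₐ[ℚ] K, σ x = x) : ∃ q : ℚ, algebraMap ℚ K q = x :=
  (InfiniteGalois.mem_range_algebraMap_iff_fixed x).2 h

end Fermat.Agent.S51
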