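/-
S51 package (B): 3-torsion in an abstract group with a short x-coordinate (`IsXi`).
-/
import Fermat.Agent.S51.Defs

set_option autoImplicit false

namespace Fermat.Agent.S51

variable {F : Type*} [Field F] {G : Type*} [AddCommGroup G] {A B : F} {xi : G → F}

namespace Tors3

open Polynomial

/-- `ξ(-P) = ξ(P)`. -/
theorem xi_neg (hX : IsXi A B xi) {P : G} (hP : P ≠ 0) : xi (-P) = xi P := by
  have hP' : -P ≠ 0 := neg_ne_zero.mpr hP
  exact ((hX.xi_eq_iff (-P) P hP' hP).mpr (Or.inr rfl))

/-- `dupF` and `dupG` have no common zero. -/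
theorem dupG_ne_zero_of_dupF_eq_zero [CharZero F] (hX : IsXi A B xi) {x : F}
    (hF : dupF A B x = 0) : dupG A B x ≠ 0 := by
  intro hG
  apply hX.disc_ne
  unfold dupF at hF
  unfold dupG at hG
  have h4 : x ^ 3 + A * x + B = 0 :=
    (mul_eq_zero.mp hG).resolve_left (by norm_num)
  linear_combination (3 * x ^ 2 + 4 * A) * hF - (3 * x ^ 3 - 5 * A * x - 27 * B) * h4

/-- The 3-division polynomial as a polynomial. -/
noncomputable def psi3Poly (A B : F) : F[X] :=
  C 3 * X ^ 4 + C (6 * A) * X ^ 2 + C (12 * B) * X - C (A ^ 2)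

theorem eval_psi3Poly (x : F) : (psi3Poly A B).eval x = psi3 A B x := by
  simp [psi3Poly, psi3]

theorem natDegree_psi3Poly [CharZero F] : (psi3Poly A B).natDegree = 4 := by
  unfold psi3Poly
  compute_degree!

theorem psi3Poly_ne_zero [CharZero F] : psi3Poly A B ≠ 0 := by
  intro h
  have := natDegree_psi3Poly (A := A) (B := B)
  rw [h, natDegree_zero] at this
  exact absurd this (by norm_num)

/-- A nonzero point whose `ξ`-coordinate is a root of `psi3` has order 3. -/
theorem three_nsmul_eq_zero_of_psi3 [CharZero F] (hX : IsXi A B xi) {P : G} (hP : P ≠ 0)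
    (h : psi3 A B (xi P) = 0) : (3 : ℕ) • P = 0 := by
  have hrel : xi P * dupG A B (xi P) = dupF A B (xi P) := by
    unfold psi3 at h
    unfold dupF dupG
    linear_combination h
  have hG : dupG A B (xi P) ≠ 0 := by
    intro hG
    have hF : dupF A B (xi P) = 0 := by rw [← hrel, hG, mul_zero]
    exact dupG_ne_zero_of_dupF_eq_zero hX hF hG
  have h2 : (2 : ℕ) • P ≠ 0 := fun h2 => hG ((hX.two_nsmul_eq_zero_iff P hP).mp h2)
  have hdbl := hX.xi_two_nsmul P hP h2
  have hxi : xi ((2 : ℕ) • P) = xi P := by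
    apply mul_right_cancel₀ hG
    rw [hdbl, hrel]
  rcases (hX.xi_eq_iff _ _ h2 hP).mp hxi with h | h
  · exfalso
    apply hP
    have : (2 : ℕ) • P - P = 0 := by rw [h, sub_self]
    rw [two_nsmul, add_sub_cancel_right] at this
    exact this
  · have : (3 : ℕ) • P = (2 : ℕ) • P + P := by
      rw [show (3 : ℕ) = 2 + 1 from rfl, add_nsmul, one_nsmul]
    rw [this, h, neg_add_cancel]

end Tors3

open Tors3 Polynomial in
/-- A nonzero point of order 3 has `ξ`-coordinate a root of the 3-division polynomial. -/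
theorem IsXi.psi3_eq_zero (hX : IsXi A B xi) {P : G} (hP : P ≠ 0) (h3 : (3 : ℕ) • P = 0) :
    psi3 A B (xi P) = 0 := by
  have h2P : (2 : ℕ) • P = -P := by
    have : (3 : ℕ) • P = (2 : ℕ) • P + P := by
      rw [show (3 : ℕ) = 2 + 1 from rfl, add_nsmul, one_nsmul]
    rw [this] at h3
    exact eq_neg_of_add_eq_zero_left h3
  have h2 : (2 : ℕ) • P ≠ 0 := by
    rw [h2P]
    exact neg_ne_zero.mpr hP
  have hdbl := hX.xi_two_nsmul P hP h2
  rw [h2P, xi_neg hX hP] at hdbl
  unfold psi3
  unfold dupF dupG at hdbl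
  linear_combination hdbl

open Tors3 Polynomial in
/-- Over an algebraically closed field of characteristic 0 there is a nonzero point of order 3. -/
theorem IsXi.exists_three_torsion [CharZero F] [IsAlgClosed F] (hX : IsXi A B xi) :
    ∃ P : G, P ≠ 0 ∧ (3 : ℕ) • P = 0 := by
  have hdeg : (psi3Poly A B).degree ≠ 0 := by
    rw [degree_eq_natDegree psi3Poly_ne_zero, natDegree_psi3Poly]
    norm_num
  obtain ⟨x, hx⟩ := IsAlgClosed.exists_root (psi3Poly A B) hdeg
  rw [IsRoot.def, eval_psi3Poly] at hx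
  obtain ⟨P, hP, rfl⟩ := hX.exists_xi x
  exact ⟨P, hP, three_nsmul_eq_zero_of_psi3 hX hP hx⟩

namespace Tors3

open Polynomial Classical in
/-- The injection of the 3-torsion into `Option (roots of psi3 × Bool)`. -/
theorem exists_injective [CharZero F] (hX : IsXi A B xi) :
    ∃ f : Submodule.torsionBy ℤ G ((3 : ℕ) : ℤ) →
      Option ({x : F // x ∈ (psi3Poly A B).roots.toFinset} × Bool), Function.Injective f := by
  choose c hc0 hcx using hX.exists_xi
  have hmem : ∀ P : Submodule.torsionBy ℤ G ((3 : ℕ) : ℤ), (P : G) ≠ 0 →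
      xi (P : G) ∈ (psi3Poly A B).roots.toFinset := by
    intro P hP
    have h3 : (3 : ℕ) • (P : G) = 0 := by
      have := P.2
      rw [Submodule.mem_torsionBy_iff, natCast_zsmul] at this
      exact this
    rw [Multiset.mem_toFinset, mem_roots psi3Poly_ne_zero, IsRoot.def, eval_psi3Poly]
    exact hX.psi3_eq_zero hP h3
  refine ⟨fun P => if h : (P : G) = 0 then none
    else some (⟨xi (P : G), hmem P h⟩, decide ((P : G) = c (xi (P : G)))), ?_⟩
  intro P Q hPQ
  by_cases hP : (P : G) = 0
  · by_cases hQ : (Q : G) = 0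
    · exact Subtype.ext (hP.trans hQ.symm)
    · simp [hP, hQ] at hPQ
  · by_cases hQ : (Q : G) = 0
    · simp [hP, hQ] at hPQ
    · simp only [hP, hQ, dite_false, Option.some.injEq, Prod.mk.injEq, Subtype.mk.injEq,
        decide_eq_decide] at hPQ
      obtain ⟨hx, hdec⟩ := hPQ
      apply Subtype.ext
      have hPc := (hX.xi_eq_iff (P : G) (c (xi (P : G))) hP (hc0 _)).mp (hcx _).symm
      have hQc := (hX.xi_eq_iff (Q : G) (c (xi (Q : G))) hQ (hc0 _)).mp (hcx _).symm
      rw [← hx] at hQc hdec
      rcases hPc with h1 | h1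
      · rw [h1]
        exact (hdec.mp h1).symm
      · rcases hQc with h2 | h2
        · exact (hdec.mpr h2).trans h2.symm
        · rw [h1, h2]

open Polynomial Classical in
theorem card_roots_le [CharZero F] : (psi3Poly A B).roots.toFinset.card ≤ 4 := by
  refine (Multiset.toFinset_card_le _).trans ?_
  have := card_roots' (psi3Poly A B)
  rw [natDegree_psi3Poly] at this
  exact this

end Tors3

/-- The 3-torsion is finite. -/
theorem IsXi.finite_three_torsion [CharZero F] (hX : IsXi A B xi) :
    Finite (Submodule.torsionBy ℤ G ((3 : ℕ) : ℤ)) := by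
  obtain ⟨f, hf⟩ := Tors3.exists_injective hX
  exact Finite.of_injective f hf

/-- The 3-torsion has at most 9 elements. -/
theorem IsXi.card_three_torsion_le [CharZero F] (hX : IsXi A B xi) :
    Nat.card (Submodule.torsionBy ℤ G ((3 : ℕ) : ℤ)) ≤ 9 := by
  obtain ⟨f, hf⟩ := Tors3.exists_injective hX
  refine (Nat.card_le_card_of_injective f hf).trans ?_
  rw [Nat.card_eq_fintype_card, Fintype.card_option, Fintype.card_prod, Fintype.card_bool,
    Fintype.card_coe]
  have := Tors3.card_roots_le (A := A) (B := B)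
  omega

end Fermat.Agent.S51
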