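/-
S51 package (C): 5-torsion in an abstract group with a short x-coordinate (`IsXi`).
-/
import Fermat.Agent.S51.Defs

set_option autoImplicit false

namespace Fermat.Agent.S51

variable {F : Type*} [Field F] {G : Type*} [AddCommGroup G] {A B : F} {xi : G → F}

namespace Tors5

/-- `ψ₄ / (2y)` in the short coordinate. -/
def psi4t (A B X : F) : F :=
  2 * X ^ 6 + 10 * A * X ^ 4 + 40 * B * X ^ 3 - 10 * A ^ 2 * X ^ 2 - 8 * A * B * X
    - 2 * A ^ 3 - 16 * B ^ 2

/-- The 5-division polynomial in the short coordinate. -/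
def psi5 (A B X : F) : F := psi4t A B X * dupG A B X ^ 2 - psi3 A B X ^ 3

theorem psi3_eq (A B X : F) : psi3 A B X = X * dupG A B X - dupF A B X := by
  unfold psi3 dupG dupF; ring

theorem psi4t_sq (A B X : F) :
    psi4t A B X ^ 2
      = 4 * (dupF A B X ^ 3 + A * dupF A B X * dupG A B X ^ 2 + B * dupG A B X ^ 3) := by
  unfold psi4t dupG dupF; ring

theorem key_identity (A B X : F) :
    dupF A B X ^ 4 - 2 * A * dupF A B X ^ 2 * dupG A B X ^ 2
        - 8 * B * dupF A B X * dupG A B X ^ 3 + A ^ 2 * dupG A B X ^ 4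
        - X * (4 * (dupF A B X ^ 3 + A * dupF A B X * dupG A B X ^ 2 + B * dupG A B X ^ 3))
          * dupG A B X
      = -(psi3 A B X * psi5 A B X) := by
  unfold psi5 psi4t psi3 dupG dupF; ring

theorem bezout (A B X : F) :
    (3 * X ^ 2 + 4 * A) * dupF A B X - (3 * X ^ 3 - 5 * A * X - 27 * B) * (X ^ 3 + A * X + B)
      = 4 * A ^ 3 + 27 * B ^ 2 := by
  unfold dupF; ring

/-- If `x₂ g = f` then `F(x₂) g⁴` is the homogenised numerator. -/
theorem dupF_mul_pow (A B x2 f g : F) (h : x2 * g = f) :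
    dupF A B x2 * g ^ 4
      = f ^ 4 - 2 * A * f ^ 2 * g ^ 2 - 8 * B * f * g ^ 3 + A ^ 2 * g ^ 4 := by
  subst h; unfold dupF; ring

/-- If `x₂ g = f` then `G(x₂) g³` is the homogenised denominator. -/
theorem dupG_mul_pow (A B x2 f g : F) (h : x2 * g = f) :
    dupG A B x2 * g ^ 3 = 4 * (f ^ 3 + A * f * g ^ 2 + B * g ^ 3) := by
  subst h; unfold dupG; ring

/-- The quadrupling relation: with `x₂ G(x) = F(x)`,
`(F(x₂) - x G(x₂)) G(x)⁴ = -ψ₃(x) ψ₅(x)`. -/
theorem quad_identity (A B x x2 : F) (h : x2 * dupG A B x = dupF A B x) :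
    (dupF A B x2 - x * dupG A B x2) * dupG A B x ^ 4 = -(psi3 A B x * psi5 A B x) := by
  have h1 := dupF_mul_pow A B x2 _ _ h
  have h2 := dupG_mul_pow A B x2 _ _ h
  rw [← key_identity, ← h1, ← h2]
  ring

/-- With `x₂ G(x) = F(x)`: `G(x₂) G(x)³ = ψ₄t(x)²`. -/
theorem dupG_two (A B x x2 : F) (h : x2 * dupG A B x = dupF A B x) :
    dupG A B x2 * dupG A B x ^ 3 = psi4t A B x ^ 2 := by
  rw [psi4t_sq, dupG_mul_pow A B x2 _ _ h]

omit [Field F] in
/-- The basic facts about a nonzero point of order 5. -/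
theorem five_facts {P : G} (hP : P ≠ 0) (h5 : (5 : ℕ) • P = 0) :
    (2 : ℕ) • P ≠ 0 ∧ (2 : ℕ) • (2 : ℕ) • P ≠ 0 ∧ (2 : ℕ) • (2 : ℕ) • P = -P ∧
      (3 : ℕ) • P ≠ 0 := by
  have h2 : (2 : ℕ) • P ≠ 0 := by
    intro h
    apply hP
    have : (5 : ℕ) • P = (2 : ℕ) • (2 : ℕ) • P + P := by abel
    rw [h5, h, smul_zero, zero_add] at this
    exact this.symm
  have hneg : (2 : ℕ) • (2 : ℕ) • P = -P := by
    have : (5 : ℕ) • P = (2 : ℕ) • (2 : ℕ) • P + P := by abel
    rw [h5] at this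
    exact eq_neg_of_add_eq_zero_left this.symm
  have h4 : (2 : ℕ) • (2 : ℕ) • P ≠ 0 := by
    rw [hneg]
    exact neg_ne_zero.mpr hP
  have h3 : (3 : ℕ) • P ≠ 0 := by
    intro h
    apply hP
    have : (2 : ℕ) • (3 : ℕ) • P = (5 : ℕ) • P + P := by abel
    rw [h5, h, smul_zero, zero_add] at this
    exact this.symm
  exact ⟨h2, h4, hneg, h3⟩

section Poly

open Polynomial

/-- The 5-division polynomial as a polynomial. -/
noncomputable def psi5Poly (A B : F) : F[X] :=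
  C 5 * X ^ 12 + C (62 * A) * X ^ 10 + C (380 * B) * X ^ 9 + C (-105 * A ^ 2) * X ^ 8
    + C (240 * A * B) * X ^ 7 + C (-300 * A ^ 3 - 240 * B ^ 2) * X ^ 6
    + C (-696 * A ^ 2 * B) * X ^ 5 + C (-1920 * A * B ^ 2 - 125 * A ^ 4) * X ^ 4
    + C (-1600 * B ^ 3 - 80 * A ^ 3 * B) * X ^ 3 + C (-240 * A ^ 2 * B ^ 2 - 50 * A ^ 5) * X ^ 2
    + C (-640 * A * B ^ 3 - 100 * A ^ 4 * B) * X + C (-256 * B ^ 4 - 32 * A ^ 3 * B ^ 2 + A ^ 6)

theorem eval_psi5Poly (A B x : F) : (psi5Poly A B).eval x = psi5 A B x := by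
  simp only [psi5Poly, eval_add, eval_mul, eval_C, eval_pow, eval_X]
  unfold psi5 psi4t psi3 dupG
  ring

theorem natDegree_psi5Poly_le (A B : F) : (psi5Poly A B).natDegree ≤ 12 := by
  unfold psi5Poly
  compute_degree!

theorem coeff_psi5Poly (A B : F) : (psi5Poly A B).coeff 12 = 5 := by
  unfold psi5Poly
  compute_degree!

theorem psi5Poly_ne_zero [CharZero F] (A B : F) : psi5Poly A B ≠ 0 := by
  intro h
  have h1 := coeff_psi5Poly A B
  rw [h, coeff_zero] at h1
  exact (by norm_num : (5 : F) ≠ 0) h1.symm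

theorem natDegree_psi5Poly [CharZero F] (A B : F) : (psi5Poly A B).natDegree = 12 := by
  refine le_antisymm (natDegree_psi5Poly_le A B) ?_
  refine le_natDegree_of_ne_zero ?_
  rw [coeff_psi5Poly]
  norm_num

theorem card_roots_psi5Poly_le [DecidableEq F] (A B : F) :
    (psi5Poly A B).roots.toFinset.card ≤ 12 :=
  (Multiset.toFinset_card_le _).trans ((card_roots' _).trans (natDegree_psi5Poly_le A B))

end Poly

/-- Non-degeneracy at a root of `ψ₅` (characteristic 0). -/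
theorem nondeg_of_root [CharZero F] (hdisc : 4 * A ^ 3 + 27 * B ^ 2 ≠ 0) (x : F)
    (h5 : psi5 A B x = 0) :
    dupG A B x ≠ 0 ∧ psi4t A B x ≠ 0 ∧ psi3 A B x ≠ 0 := by
  have h4 : (4 : F) ≠ 0 := by norm_num
  -- `ψ₃ = 0` forces `G ≠ 0` and `ψ₄t² = G⁴`
  have hG_of_psi3 : psi3 A B x = 0 → dupG A B x ≠ 0 := by
    intro h3 hG
    have hF : dupF A B x = 0 := by
      have := psi3_eq A B x
      rw [h3, hG, mul_zero, zero_sub] at this
      exact neg_eq_zero.mp this.symm
    have hc : x ^ 3 + A * x + B = 0 := by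
      unfold dupG at hG
      exact (mul_eq_zero.mp hG).resolve_left h4
    have hb := bezout A B x
    rw [hF, hc, mul_zero, mul_zero, sub_zero] at hb
    exact hdisc hb.symm
  have hsq_of_psi3 : psi3 A B x = 0 → psi4t A B x ^ 2 = dupG A B x ^ 4 := by
    intro h3
    have hF : dupF A B x = x * dupG A B x := by
      have := psi3_eq A B x
      rw [h3] at this
      exact (sub_eq_zero.mp this.symm).symm
    rw [psi4t_sq, hF]
    unfold dupG
    ring
  have hG : dupG A B x ≠ 0 := by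
    intro hG
    have h3 : psi3 A B x = 0 := by
      unfold psi5 at h5
      rw [hG] at h5
      have : psi3 A B x ^ 3 = 0 := by linear_combination -h5
      exact pow_eq_zero_iff (by norm_num) |>.mp this
    exact hG_of_psi3 h3 hG
  have h4t : psi4t A B x ≠ 0 := by
    intro h4t
    have h3 : psi3 A B x = 0 := by
      unfold psi5 at h5
      rw [h4t] at h5
      have : psi3 A B x ^ 3 = 0 := by linear_combination -h5
      exact pow_eq_zero_iff (by norm_num) |>.mp this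
    have := hsq_of_psi3 h3
    rw [h4t] at this
    exact pow_ne_zero 4 hG (by rw [← this]; ring)
  refine ⟨hG, h4t, ?_⟩
  intro h3
  unfold psi5 at h5
  rw [h3] at h5
  have : psi4t A B x * dupG A B x ^ 2 = 0 := by linear_combination h5
  exact mul_ne_zero h4t (pow_ne_zero 2 hG) this

section Points

variable (hX : IsXi A B xi)
include hX

theorem xi_neg {P : G} (hP : P ≠ 0) : xi (-P) = xi P :=
  (hX.xi_eq_iff (-P) P (neg_ne_zero.mpr hP) hP).mpr (Or.inr rfl)

theorem dupG_ne_zero {P : G} (hP : P ≠ 0) (h2 : (2 : ℕ) • P ≠ 0) : dupG A B (xi P) ≠ 0 :=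
  fun h => h2 ((hX.two_nsmul_eq_zero_iff P hP).mpr h)

theorem two_ne_zero_of {P : G} (hP : P ≠ 0) (h2 : (2 : ℕ) • P ≠ 0) : (2 : F) ≠ 0 := by
  intro h
  apply dupG_ne_zero hX hP h2
  have h4 : (4 : F) = 0 := by
    have : (4 : F) = 2 * 2 := by norm_num
    rw [this, h, mul_zero]
  unfold dupG
  rw [h4, zero_mul]

theorem xi_ne_xi_two {P : G} (hP : P ≠ 0) (h2 : (2 : ℕ) • P ≠ 0) (h3 : (3 : ℕ) • P ≠ 0) :
    xi P ≠ xi ((2 : ℕ) • P) := by
  intro h
  rcases (hX.xi_eq_iff P ((2 : ℕ) • P) hP h2).mp h with h' | h'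
  · apply hP
    rw [two_nsmul] at h'
    have h'' : P + 0 = P + P := by rw [add_zero]; exact h'
    exact (add_left_cancel h'').symm
  · apply h3
    have : (3 : ℕ) • P = P + (2 : ℕ) • P := by abel
    rw [this]
    exact eq_neg_iff_add_eq_zero.mp h'

/-- `ξ(P)` is a root of `ψ₅` for a nonzero point `P` of order 5. -/
theorem psi5_xi_eq_zero {P : G} (hP : P ≠ 0) (h5 : (5 : ℕ) • P = 0) :
    psi5 A B (xi P) = 0 := by
  obtain ⟨h2, h4, hneg, h3⟩ := five_facts hP h5
  have hne := xi_ne_xi_two hX hP h2 h3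
  have E1 := hX.xi_two_nsmul P hP h2
  have E2 := hX.xi_two_nsmul ((2 : ℕ) • P) h2 h4
  rw [hneg, xi_neg hX hP] at E2
  have hG := dupG_ne_zero hX hP h2
  have hq := quad_identity A B (xi P) (xi ((2 : ℕ) • P)) E1
  rw [E2, sub_self, zero_mul] at hq
  have h3' : psi3 A B (xi P) ≠ 0 := by
    rw [psi3_eq, ← E1, ← sub_mul]
    exact mul_ne_zero (sub_ne_zero.mpr hne) hG
  have := neg_eq_zero.mp hq.symm
  exact (mul_eq_zero.mp this).resolve_left h3'

/-- A point whose `ξ`-coordinate is a root of `ψ₅` (with the three non-degeneracy conditions)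
has order 5. -/
theorem five_nsmul_eq_zero_of_root {P : G} (hP : P ≠ 0) (hG : dupG A B (xi P) ≠ 0)
    (h4t : psi4t A B (xi P) ≠ 0) (h3 : psi3 A B (xi P) ≠ 0) (h5 : psi5 A B (xi P) = 0) :
    (5 : ℕ) • P = 0 := by
  have h2 : (2 : ℕ) • P ≠ 0 := fun h => hG ((hX.two_nsmul_eq_zero_iff P hP).mp h)
  have E1 := hX.xi_two_nsmul P hP h2
  have hG2 : dupG A B (xi ((2 : ℕ) • P)) ≠ 0 := by
    have := dupG_two A B (xi P) (xi ((2 : ℕ) • P)) E1
    intro h0
    rw [h0, zero_mul] at this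
    exact h4t ((pow_eq_zero_iff (two_ne_zero)).mp this.symm)
  have h4 : (2 : ℕ) • (2 : ℕ) • P ≠ 0 :=
    fun h => hG2 ((hX.two_nsmul_eq_zero_iff _ h2).mp h)
  have E2 := hX.xi_two_nsmul ((2 : ℕ) • P) h2 h4
  have hq := quad_identity A B (xi P) (xi ((2 : ℕ) • P)) E1
  rw [h5, mul_zero, neg_zero] at hq
  have hq' : dupF A B (xi ((2 : ℕ) • P)) - xi P * dupG A B (xi ((2 : ℕ) • P)) = 0 :=
    (mul_eq_zero.mp hq).resolve_right (pow_ne_zero 4 hG)
  have hxi4 : xi ((2 : ℕ) • (2 : ℕ) • P) = xi P := by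
    have : xi ((2 : ℕ) • (2 : ℕ) • P) * dupG A B (xi ((2 : ℕ) • P))
        = xi P * dupG A B (xi ((2 : ℕ) • P)) := by
      rw [E2]
      exact sub_eq_zero.mp hq'
    exact mul_right_cancel₀ hG2 this
  rcases (hX.xi_eq_iff _ _ h4 hP).mp hxi4 with h' | h'
  · -- `4P = P`, so `3P = 0`, so `2P = -P`, so `ψ₃(ξ P) = 0`
    exfalso
    apply h3
    have h3P : (2 : ℕ) • P = -P := by
      have : (2 : ℕ) • (2 : ℕ) • P = (2 : ℕ) • P + P + P := by abel
      rw [this] at h'
      have h'' : (2 : ℕ) • P + P + P = 0 + P := by rw [zero_add]; exact h'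
      exact eq_neg_of_add_eq_zero_left (add_right_cancel h'')
    rw [h3P, xi_neg hX hP] at E1
    rw [psi3_eq, E1, sub_self]
  · have : (5 : ℕ) • P = (2 : ℕ) • (2 : ℕ) • P + P := by abel
    rw [this, h', neg_add_cancel]

end Points

end Tors5

open Tors5

/-- For a nonzero point `P` of order 5, `x₁ = ξ(P)` and `x₂ = ξ(2P)` are distinct and
`s = x₁ + x₂`, `m = x₁ x₂` satisfy the two relations `e5a`, `e5b`. -/
theorem IsXi.five_torsion_rel (hX : IsXi A B xi) {P : G} (hP : P ≠ 0) (h5 : (5 : ℕ) • P = 0) :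
    xi P ≠ xi ((2 : ℕ) • P) ∧
    e5a A B (xi P + xi ((2 : ℕ) • P)) (xi P * xi ((2 : ℕ) • P)) = 0 ∧
    e5b A (xi P + xi ((2 : ℕ) • P)) (xi P * xi ((2 : ℕ) • P)) = 0 := by
  obtain ⟨h2, h4, hneg, h3⟩ := five_facts hP h5
  have hne := xi_ne_xi_two hX hP h2 h3
  have E1 := hX.xi_two_nsmul P hP h2
  have E2 := hX.xi_two_nsmul ((2 : ℕ) • P) h2 h4
  rw [hneg, xi_neg hX hP] at E2
  set x1 := xi P with hx1
  set x2 := xi ((2 : ℕ) • P) with hx2
  have ha : e5a A B (x1 + x2) (x1 * x2) = 0 := by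
    have h : (x1 - x2) * e5a A B (x1 + x2) (x1 * x2) = 0 := by
      unfold e5a
      unfold dupG dupF at E1 E2
      linear_combination E2 - E1
    exact (mul_eq_zero.mp h).resolve_left (sub_ne_zero.mpr hne)
  refine ⟨hne, ha, ?_⟩
  have h2F : (2 : F) ≠ 0 := two_ne_zero_of hX hP h2
  have h : 2 * e5b A (x1 + x2) (x1 * x2) = 0 := by
    unfold e5a at ha
    unfold e5b
    unfold dupG dupF at E1 E2
    linear_combination (-1 : F) * E1 - E2 - 3 * (x1 + x2) * ha
  exact (mul_eq_zero.mp h).resolve_left h2F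

/-- Over an algebraically closed field of characteristic 0 there is a nonzero point of order 5. -/
theorem IsXi.exists_five_torsion [CharZero F] [IsAlgClosed F] (hX : IsXi A B xi) :
    ∃ P : G, P ≠ 0 ∧ (5 : ℕ) • P = 0 := by
  have hdeg : (psi5Poly A B).degree ≠ 0 := by
    rw [Polynomial.degree_eq_natDegree (psi5Poly_ne_zero A B), natDegree_psi5Poly]
    norm_num
  obtain ⟨x, hx⟩ := IsAlgClosed.exists_root (psi5Poly A B) hdeg
  have h5 : psi5 A B x = 0 := by
    rw [← eval_psi5Poly]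
    exact hx
  obtain ⟨hG, h4t, h3⟩ := nondeg_of_root hX.disc_ne x h5
  obtain ⟨P, hP, rfl⟩ := hX.exists_xi x
  exact ⟨P, hP, five_nsmul_eq_zero_of_root hX hP hG h4t h3 h5⟩

namespace Tors5

/-- The 5-torsion is contained in an explicit finite set with at most 25 elements. -/
theorem exists_finset_five_torsion [CharZero F] (hX : IsXi A B xi) :
    ∃ S : Finset G, S.card ≤ 25 ∧ ∀ P : G, (5 : ℕ) • P = 0 → P ∈ S := by
  classical
  choose rep hrep using hX.exists_xi
  set R : Finset F := (psi5Poly A B).roots.toFinset with hR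
  refine ⟨insert 0 (R.image rep ∪ R.image fun r => -rep r), ?_, ?_⟩
  · have h1 : (R.image rep).card ≤ 12 :=
      Finset.card_image_le.trans (card_roots_psi5Poly_le A B)
    have h2 : (R.image fun r => -rep r).card ≤ 12 :=
      Finset.card_image_le.trans (card_roots_psi5Poly_le A B)
    calc (insert 0 (R.image rep ∪ R.image fun r => -rep r)).card
        ≤ (R.image rep ∪ R.image fun r => -rep r).card + 1 := Finset.card_insert_le _ _
      _ ≤ (R.image rep).card + (R.image fun r => -rep r).card + 1 :=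
          Nat.add_le_add_right (Finset.card_union_le _ _) 1
      _ ≤ 25 := by omega
  · intro P h5
    by_cases hP : P = 0
    · subst hP
      exact Finset.mem_insert_self _ _
    · have hroot : xi P ∈ R := by
        rw [hR, Multiset.mem_toFinset, Polynomial.mem_roots (psi5Poly_ne_zero A B),
          Polynomial.IsRoot.def, eval_psi5Poly]
        exact psi5_xi_eq_zero hX hP h5
      refine Finset.mem_insert_of_mem (Finset.mem_union.mpr ?_)
      rcases (hX.xi_eq_iff P (rep (xi P)) hP (hrep (xi P)).1).mp (hrep (xi P)).2.symm with h | h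
      · exact Or.inl (Finset.mem_image.mpr ⟨xi P, hroot, h.symm⟩)
      · exact Or.inr (Finset.mem_image.mpr ⟨xi P, hroot, h.symm⟩)

theorem mem_torsionBy_five_iff (P : G) :
    P ∈ Submodule.torsionBy ℤ G ((5 : ℕ) : ℤ) ↔ (5 : ℕ) • P = 0 := by
  rw [Submodule.mem_torsionBy_iff, natCast_zsmul]

end Tors5

/-- The 5-torsion is finite. -/
theorem IsXi.finite_five_torsion [CharZero F] (hX : IsXi A B xi) :
    Finite (Submodule.torsionBy ℤ G ((5 : ℕ) : ℤ)) := by
  obtain ⟨S, -, hS⟩ := exists_finset_five_torsion hX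
  have hsub : ((Submodule.torsionBy ℤ G ((5 : ℕ) : ℤ) : Submodule ℤ G) : Set G) ⊆ (S : Set G) :=
    fun P hP => hS P ((mem_torsionBy_five_iff P).mp hP)
  exact (S.finite_toSet.subset hsub).to_subtype

/-- The 5-torsion has at most 25 elements. -/
theorem IsXi.card_five_torsion_le [CharZero F] (hX : IsXi A B xi) :
    Nat.card (Submodule.torsionBy ℤ G ((5 : ℕ) : ℤ)) ≤ 25 := by
  obtain ⟨S, hcard, hS⟩ := exists_finset_five_torsion hX
  have hsub : ((Submodule.torsionBy ℤ G ((5 : ℕ) : ℤ) : Submodule ℤ G) : Set G) ⊆ (S : Set G) :=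
    fun P hP => hS P ((mem_torsionBy_five_iff P).mp hP)
  have h1 : Nat.card (Submodule.torsionBy ℤ G ((5 : ℕ) : ℤ))
      = ((Submodule.torsionBy ℤ G ((5 : ℕ) : ℤ) : Submodule ℤ G) : Set G).ncard :=
    Nat.card_coe_set_eq _
  rw [h1]
  calc ((Submodule.torsionBy ℤ G ((5 : ℕ) : ℤ) : Submodule ℤ G) : Set G).ncard
      ≤ (S : Set G).ncard := Set.ncard_le_ncard hsub S.finite_toSet
    _ = S.card := Set.ncard_coe_finset S
    _ ≤ 25 := hcard

end Fermat.Agent.S51
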