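/-
S51 assembly: from the failure of irreducibility mod 3 and mod 5 to rational torsion data,
then to a rational point of `X₀(15)` and a contradiction with semistability.
-/
import Fermat.Statements.S51
import Fermat.Agent.S51.Defs
import Fermat.Agent.S51.Coord
import Fermat.Agent.S51.Tors3
import Fermat.Agent.S51.Tors5
import Fermat.Agent.S51.Line
import Fermat.Agent.S51.AlgCore
import Fermat.Agent.S51.Dioph

set_option autoImplicit false

open WeierstrassCurve WeierstrassCurve.Affine WeierstrassCurve.Affine.Point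

namespace Fermat.Agent.S51

namespace Main

section Abstract

variable {F : Type*} [Field F] {G : Type*} [AddCommGroup G] {A B : F} {xi : G → F}

theorem xi_neg (hX : IsXi A B xi) {P : G} (hP : P ≠ 0) : xi (-P) = xi P :=
  (hX.xi_eq_iff (-P) P (neg_ne_zero.mpr hP) hP).mpr (Or.inr rfl)

theorem nsmul_mod {P : G} {n : ℕ} (hn : n • P = 0) (k : ℕ) : k • P = (k % n) • P := by
  conv_lhs => rw [← Nat.div_add_mod k n, add_nsmul, mul_nsmul, hn, nsmul_zero, zero_add]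

theorem xi_nsmul_of_three (hX : IsXi A B xi) {P : G} (hP : P ≠ 0) (h3 : (3 : ℕ) • P = 0)
    (k : ℕ) (hk : k • P ≠ 0) : xi (k • P) = xi P := by
  rw [nsmul_mod h3 k] at hk ⊢
  have hlt : k % 3 < 3 := Nat.mod_lt _ (by norm_num)
  interval_cases h : k % 3
  · exact absurd (zero_nsmul P) hk
  · rw [one_nsmul]
  · have h2 : (2 : ℕ) • P = -P := by
      rw [eq_neg_iff_add_eq_zero, ← succ_nsmul]; exact h3
    rw [h2, xi_neg hX hP]

theorem two_nsmul_ne_zero_of_five {P : G} (hP : P ≠ 0) (h5 : (5 : ℕ) • P = 0) :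
    (2 : ℕ) • P ≠ 0 := by
  intro h2
  apply hP
  have h4 : (4 : ℕ) • P = 0 := by
    rw [show (4 : ℕ) = 2 * 2 from rfl, mul_nsmul, h2, nsmul_zero]
  have : (5 : ℕ) • P = (4 : ℕ) • P + P := by rw [← succ_nsmul]
  rw [h5, h4, zero_add] at this
  exact this.symm

theorem xi_nsmul_of_five (hX : IsXi A B xi) {P : G} (hP : P ≠ 0) (h5 : (5 : ℕ) • P = 0)
    (k : ℕ) (hk : k • P ≠ 0) :
    (xi (k • P) = xi P ∧ xi ((2 : ℕ) • (k • P)) = xi ((2 : ℕ) • P)) ∨
    (xi (k • P) = xi ((2 : ℕ) • P) ∧ xi ((2 : ℕ) • (k • P)) = xi P) := by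
  have h2P : (2 : ℕ) • P ≠ 0 := two_nsmul_ne_zero_of_five hP h5
  have e3 : (3 : ℕ) • P = -((2 : ℕ) • P) := by
    rw [eq_neg_iff_add_eq_zero, ← add_nsmul]; exact h5
  have e4 : (4 : ℕ) • P = -P := by
    rw [eq_neg_iff_add_eq_zero, ← succ_nsmul]; exact h5
  rw [nsmul_mod h5 k] at hk ⊢
  have hlt : k % 5 < 5 := Nat.mod_lt _ (by norm_num)
  interval_cases h : k % 5
  · exact absurd (zero_nsmul P) hk
  · left; rw [one_nsmul]; exact ⟨rfl, rfl⟩
  · right
    refine ⟨rfl, ?_⟩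
    rw [← mul_nsmul, show (2 : ℕ) * 2 = 4 from rfl, e4, xi_neg hX hP]
  · right
    refine ⟨by rw [e3, xi_neg hX h2P], ?_⟩
    rw [← mul_nsmul, show (3 : ℕ) * 2 = 5 + 1 from rfl, add_nsmul, h5, zero_add, one_nsmul]
  · left
    refine ⟨by rw [e4, xi_neg hX hP], ?_⟩
    rw [← mul_nsmul, show (4 : ℕ) * 2 = 5 + 3 from rfl, add_nsmul, h5, zero_add, e3,
      xi_neg hX h2P]

end Abstract

section Concrete

variable {K : Type*} [Field K] [Algebra ℚ K] [DecidableEq K] [IsAlgClosed K] [IsGalois ℚ K]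
  [CharZero K]

theorem natCast_zsmul_eq {G : Type*} [AddCommGroup G] (n : ℕ) (P : G) :
    ((n : ℕ) : ℤ) • P = n • P := natCast_zsmul P n

/-- If the mod 3 representation is not irreducible, the 3-division polynomial has a rational
root. -/
theorem rational_root_three (E : WeierstrassCurve ℚ) (hΔ : E.Δ ≠ 0)
    (h : ¬ Affine.Point.GaloisRepIsIrreducible (K := K) ℚ E 3) :
    ∃ ξ₀ : ℚ, psi3 (-E.c₄ / 48) (-E.c₆ / 864) ξ₀ = 0 := by
  have hX := isXi_xiK (K := K) E hΔ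
  have : Finite (Submodule.torsionBy ℤ (E⁄K).Point ((3 : ℕ) : ℤ)) := hX.finite_three_torsion
  have hcard := hX.card_three_torsion_le
  obtain ⟨P₀, hP₀, hP₀3⟩ := hX.exists_three_torsion
  have hnt : Nontrivial (Submodule.torsionBy ℤ (E⁄K).Point ((3 : ℕ) : ℤ)) := by
    refine ⟨⟨⟨P₀, ?_⟩, 0, ?_⟩⟩
    · rw [Submodule.mem_torsionBy_iff, natCast_zsmul_eq]; exact hP₀3
    · intro h0; exact hP₀ (congrArg Subtype.val h0)
  unfold Affine.Point.GaloisRepIsIrreducible at h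
  rw [not_and] at h
  have h' := h hnt
  push Not at h'
  obtain ⟨N, hN, hN0, hN1⟩ := h'
  obtain ⟨P, hPN, hP0, hgen⟩ := exists_generator_of_proper (p := 3) (by simpa using hcard) N
    hN0 hN1
  have hPv : (P : (E⁄K).Point) ≠ 0 := fun h0 => hP0 (Subtype.ext h0)
  have hP3 : (3 : ℕ) • (P : (E⁄K).Point) = 0 := by
    have := P.2
    rwa [Submodule.mem_torsionBy_iff, natCast_zsmul_eq] at this
  have hfix : ∀ σ : K ≃ₐ[ℚ] K, σ (xiK E (P : (E⁄K).Point)) = xiK E (P : (E⁄K).Point) := by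
    intro σ
    obtain ⟨k, hk⟩ := hgen (σ • P) (hN σ P hPN)
    have hkv : σ • (P : (E⁄K).Point) = k • (P : (E⁄K).Point) := by
      have h1 := congrArg Subtype.val hk
      have h2 : ((σ • P : Submodule.torsionBy ℤ (E⁄K).Point _) : (E⁄K).Point) =
          σ • (P : (E⁄K).Point) := rfl
      rw [← h2, h1]
      simp
    have hne : k • (P : (E⁄K).Point) ≠ 0 := by
      rw [← hkv]; exact (smul_ne_zero_iff_ne σ).mpr hPv
    rw [← xiK_smul, hkv]
    exact xi_nsmul_of_three hX hPv hP3 k hne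
  obtain ⟨q, hq⟩ := exists_rat_of_fixed _ hfix
  refine ⟨q, ?_⟩
  have hroot := hX.psi3_eq_zero hPv hP3
  rw [← hq] at hroot
  have : algebraMap ℚ K (psi3 (-E.c₄ / 48) (-E.c₆ / 864) q) = 0 := by
    simpa [psi3] using hroot
  exact (map_eq_zero (algebraMap ℚ K)).mp this

/-- If the mod 5 representation is not irreducible, there are rational `s, m` (sum and product
of the short x-coordinates of `P`, `2P` on a stable line) satisfying the two relations. -/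
theorem rational_data_five (E : WeierstrassCurve ℚ) (hΔ : E.Δ ≠ 0)
    (h : ¬ Affine.Point.GaloisRepIsIrreducible (K := K) ℚ E 5) :
    ∃ s m : ℚ, s ^ 2 - 4 * m ≠ 0 ∧ e5a (-E.c₄ / 48) (-E.c₆ / 864) s m = 0 ∧
      e5b (-E.c₄ / 48) s m = 0 := by
  have : Fact (Nat.Prime 5) := ⟨by norm_num⟩
  have hX := isXi_xiK (K := K) E hΔ
  have : Finite (Submodule.torsionBy ℤ (E⁄K).Point ((5 : ℕ) : ℤ)) := hX.finite_five_torsion
  have hcard := hX.card_five_torsion_le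
  obtain ⟨P₀, hP₀, hP₀5⟩ := hX.exists_five_torsion
  have hnt : Nontrivial (Submodule.torsionBy ℤ (E⁄K).Point ((5 : ℕ) : ℤ)) := by
    refine ⟨⟨⟨P₀, ?_⟩, 0, ?_⟩⟩
    · rw [Submodule.mem_torsionBy_iff, natCast_zsmul_eq]; exact hP₀5
    · intro h0; exact hP₀ (congrArg Subtype.val h0)
  unfold Affine.Point.GaloisRepIsIrreducible at h
  rw [not_and] at h
  have h' := h hnt
  push Not at h'
  obtain ⟨N, hN, hN0, hN1⟩ := h'
  obtain ⟨P, hPN, hP0, hgen⟩ := exists_generator_of_proper (p := 5) (by simpa using hcard) N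
    hN0 hN1
  have hPv : (P : (E⁄K).Point) ≠ 0 := fun h0 => hP0 (Subtype.ext h0)
  have hP5 : (5 : ℕ) • (P : (E⁄K).Point) = 0 := by
    have := P.2
    rwa [Submodule.mem_torsionBy_iff, natCast_zsmul_eq] at this
  set x₁ : K := xiK E (P : (E⁄K).Point) with hx₁
  set x₂ : K := xiK E ((2 : ℕ) • (P : (E⁄K).Point)) with hx₂
  have hperm : ∀ σ : K ≃ₐ[ℚ] K, (σ x₁ = x₁ ∧ σ x₂ = x₂) ∨ (σ x₁ = x₂ ∧ σ x₂ = x₁) := by
    intro σ
    obtain ⟨k, hk⟩ := hgen (σ • P) (hN σ P hPN)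
    have hkv : σ • (P : (E⁄K).Point) = k • (P : (E⁄K).Point) := by
      have h1 := congrArg Subtype.val hk
      have h2 : ((σ • P : Submodule.torsionBy ℤ (E⁄K).Point _) : (E⁄K).Point) =
          σ • (P : (E⁄K).Point) := rfl
      rw [← h2, h1]
      simp
    have hne : k • (P : (E⁄K).Point) ≠ 0 := by
      rw [← hkv]; exact (smul_ne_zero_iff_ne σ).mpr hPv
    have h1 : σ x₁ = xiK E (k • (P : (E⁄K).Point)) := by rw [hx₁, ← xiK_smul, hkv]
    have h2 : σ x₂ = xiK E ((2 : ℕ) • (k • (P : (E⁄K).Point))) := by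
      have hc : σ • ((2 : ℕ) • (P : (E⁄K).Point)) = (2 : ℕ) • (σ • (P : (E⁄K).Point)) :=
        map_nsmul (DistribSMul.toAddMonoidHom (E⁄K).Point σ) 2 (P : (E⁄K).Point)
      rw [hx₂, ← xiK_smul, hc, hkv]
    rw [h1, h2]
    exact xi_nsmul_of_five hX hPv hP5 k hne
  have hs : ∀ σ : K ≃ₐ[ℚ] K, σ (x₁ + x₂) = x₁ + x₂ := by
    intro σ
    rcases hperm σ with ⟨h1, h2⟩ | ⟨h1, h2⟩
    · rw [map_add, h1, h2]
    · rw [map_add, h1, h2, add_comm]
  have hm : ∀ σ : K ≃ₐ[ℚ] K, σ (x₁ * x₂) = x₁ * x₂ := by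
    intro σ
    rcases hperm σ with ⟨h1, h2⟩ | ⟨h1, h2⟩
    · rw [map_mul, h1, h2]
    · rw [map_mul, h1, h2, mul_comm]
  obtain ⟨s, hsq⟩ := exists_rat_of_fixed _ hs
  obtain ⟨m, hmq⟩ := exists_rat_of_fixed _ hm
  obtain ⟨hne, ha, hb⟩ := hX.five_torsion_rel hPv hP5
  rw [← hx₁, ← hx₂] at hne ha hb
  rw [← hsq, ← hmq] at ha hb
  refine ⟨s, m, ?_, ?_, ?_⟩
  · intro h0
    apply hne
    have : algebraMap ℚ K (s ^ 2 - 4 * m) = 0 := by rw [h0, _root_.map_zero]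
    have h4 : (x₁ - x₂) ^ 2 = 0 := by
      have e : (x₁ - x₂) ^ 2 = (x₁ + x₂) ^ 2 - 4 * (x₁ * x₂) := by ring
      rw [e, ← hsq, ← hmq]
      simpa using this
    exact sub_eq_zero.mp (pow_eq_zero_iff (two_ne_zero) |>.mp h4)
  · have : algebraMap ℚ K (e5a (-E.c₄ / 48) (-E.c₆ / 864) s m) = 0 := by
      simpa [e5a] using ha
    exact (map_eq_zero (algebraMap ℚ K)).mp this
  · have : algebraMap ℚ K (e5b (-E.c₄ / 48) s m) = 0 := by
      simpa [e5b] using hb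
    exact (map_eq_zero (algebraMap ℚ K)).mp this

end Concrete

/-- `AlgebraicClosure ℚ` is an algebraic closure of `ℚ` for the algebra structure found by
instance search (`DivisionRing.toRatAlgebra`). -/
theorem isAlgClosure_rat : IsAlgClosure ℚ (AlgebraicClosure ℚ) := by
  have h : (inferInstance : Algebra ℚ (AlgebraicClosure ℚ)) = AlgebraicClosure.instAlgebra ℚ :=
    Subsingleton.elim _ _
  rw [show (DivisionRing.toRatAlgebra : Algebra ℚ (AlgebraicClosure ℚ)) =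
    AlgebraicClosure.instAlgebra ℚ from h]
  infer_instance

/-- The main theorem, for the rational curve. -/
theorem main (W : WeierstrassCurve ℤ) (hΔ : W.Δ ≠ 0) (hW : W.IsSemistableModel) :
    W.ModRepIsIrreducible 3 ∨ W.ModRepIsIrreducible 5 := by
  by_contra hcon
  rw [not_or] at hcon
  obtain ⟨h3, h5⟩ := hcon
  unfold WeierstrassCurve.ModRepIsIrreducible at h3 h5
  have : IsAlgClosure ℚ (AlgebraicClosure ℚ) := isAlgClosure_rat
  have : IsGalois ℚ (AlgebraicClosure ℚ) := IsAlgClosure.isGalois ℚ _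
  set E : WeierstrassCurve ℚ := W.map (Int.castRingHom ℚ) with hE
  have hc4 : E.c₄ = (W.c₄ : ℚ) := by rw [hE, WeierstrassCurve.map_c₄]; rfl
  have hc6 : E.c₆ = (W.c₆ : ℚ) := by rw [hE, WeierstrassCurve.map_c₆]; rfl
  have hEΔ' : E.Δ = (W.Δ : ℚ) := by rw [hE, WeierstrassCurve.map_Δ]; rfl
  have hEΔ : E.Δ ≠ 0 := by rw [hEΔ']; exact_mod_cast hΔ
  obtain ⟨ξ₀, hξ₀⟩ := rational_root_three E hEΔ h3
  obtain ⟨s, m, hd, h5a, h5b⟩ := rational_data_five E hEΔ h5
  have hrel : 1728 * E.Δ = E.c₄ ^ 3 - E.c₆ ^ 2 := E.c_relation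
  have hDval : -16 * (4 * (-E.c₄ / 48) ^ 3 + 27 * (-E.c₆ / 864) ^ 2) = E.Δ := by
    linear_combination (-1 / 1728 : ℚ) * hrel
  have hD : 4 * (-E.c₄ / 48) ^ 3 + 27 * (-E.c₆ / 864) ^ 2 ≠ 0 := by
    intro h0
    rw [h0, mul_zero] at hDval
    exact hEΔ hDval.symm
  obtain ⟨h, t, hh, ht, hh3, ht5⟩ := alg_core _ _ ξ₀ s m hξ₀ h5a h5b hd hD
  have htl := j_of_three_five _ h t hh ht hh3 ht5
  refine semistable_endgame W.c₄ W.Δ hΔ hW t htl ?_
  rw [hDval] at ht5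
  have e48 : -48 * (-E.c₄ / 48) = E.c₄ := by ring
  rw [e48, hc4, hEΔ'] at ht5
  have hΔq : (W.Δ : ℚ) ≠ 0 := by exact_mod_cast hΔ
  field_simp at ht5
  linear_combination ht5

end Main

end Fermat.Agent.S51
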