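/-
S51: generic counting lemma for torsion in an abstract group with a short x-coordinate:
if `ξ` maps the nonzero `n`-torsion into the roots of a nonzero polynomial `p`, then the
`n`-torsion is finite with at most `2 * deg p + 1` elements.
-/
import Fermat.Agent.S51.Defs

set_option autoImplicit false

namespace Fermat.Agent.S51

open Polynomial

variable {F : Type*} [Field F] {G : Type*} [AddCommGroup G] {A B : F} {xi : G → F}

namespace Count

open Classical in
/-- A chosen nonzero `n`-torsion point with prescribed `ξ`-coordinate (or `0` if none). -/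
noncomputable def rep (xi : G → F) (n : ℕ) (x : F) : G :=
  if h : ∃ P : G, P ≠ 0 ∧ n • P = 0 ∧ xi P = x then h.choose else 0

omit [Field F] in
theorem rep_spec {n : ℕ} {P : G} (hP : P ≠ 0) (hn : n • P = 0) :
    rep xi n (xi P) ≠ 0 ∧ n • rep xi n (xi P) = 0 ∧ xi (rep xi n (xi P)) = xi P := by
  have h : ∃ Q : G, Q ≠ 0 ∧ n • Q = 0 ∧ xi Q = xi P := ⟨P, hP, hn, rfl⟩
  unfold rep
  rw [dif_pos h]
  exact h.choose_spec

open Classical in
/-- The injection of the `n`-torsion into `Option (roots × Bool)`. -/
noncomputable def code (xi : G → F) (n : ℕ) (p : F[X])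
    (hroot : ∀ P : G, P ≠ 0 → n • P = 0 → p.IsRoot (xi P)) (hp : p ≠ 0)
    (P : Submodule.torsionBy ℤ G ((n : ℕ) : ℤ)) : Option (p.roots.toFinset × Bool) :=
  if h : (P : G) = 0 then none
  else some (⟨xi (P : G), by
      have hn : n • (P : G) = 0 := by
        have := P.2
        rwa [Submodule.mem_torsionBy_iff, natCast_zsmul] at this
      rw [Multiset.mem_toFinset, mem_roots hp]
      exact hroot _ h hn⟩, decide ((P : G) = rep xi n (xi (P : G))))

theorem code_injective (hX : IsXi A B xi) (n : ℕ) (p : F[X])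
    (hroot : ∀ P : G, P ≠ 0 → n • P = 0 → p.IsRoot (xi P)) (hp : p ≠ 0) :
    Function.Injective (code xi n p hroot hp) := by
  classical
  intro P Q hPQ
  have hnP : n • (P : G) = 0 := by
    have := P.2
    rwa [Submodule.mem_torsionBy_iff, natCast_zsmul] at this
  have hnQ : n • (Q : G) = 0 := by
    have := Q.2
    rwa [Submodule.mem_torsionBy_iff, natCast_zsmul] at this
  unfold code at hPQ
  by_cases hP : (P : G) = 0
  · by_cases hQ : (Q : G) = 0
    · exact Subtype.ext (hP.trans hQ.symm)
    · rw [dif_pos hP, dif_neg hQ] at hPQ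
      exact absurd hPQ (by simp)
  · by_cases hQ : (Q : G) = 0
    · rw [dif_neg hP, dif_pos hQ] at hPQ
      exact absurd hPQ (by simp)
    · rw [dif_neg hP, dif_neg hQ] at hPQ
      have h1 := Option.some.inj hPQ
      have hx : xi (P : G) = xi (Q : G) := congrArg (fun z => (z.1 : F)) h1
      have hb : decide ((P : G) = rep xi n (xi (P : G))) =
          decide ((Q : G) = rep xi n (xi (Q : G))) := congrArg Prod.snd h1
      obtain ⟨hr0, -, hrx⟩ := rep_spec (xi := xi) hP hnP
      have hPr := (hX.xi_eq_iff (P : G) _ hP hr0).mp hrx.symm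
      have hQr := (hX.xi_eq_iff (Q : G) _ hQ hr0).mp (hx ▸ hrx.symm)
      rw [← hx] at hb
      have hiff : (P : G) = rep xi n (xi (P : G)) ↔ (Q : G) = rep xi n (xi (P : G)) := by
        simpa using hb
      apply Subtype.ext
      rcases hPr with hPr | hPr
      · rw [hiff.mp hPr]; exact hPr
      · rcases hQr with hQr | hQr
        · rw [hiff.mpr hQr]; exact hQr.symm
        · rw [hPr, hQr]

end Count

/-- If `ξ` maps the nonzero `n`-torsion into the roots of a nonzero polynomial, the `n`-torsion
is finite. -/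
theorem IsXi.finite_torsion (hX : IsXi A B xi) (n : ℕ) (p : F[X]) (hp : p ≠ 0)
    (hroot : ∀ P : G, P ≠ 0 → n • P = 0 → p.IsRoot (xi P)) :
    Finite (Submodule.torsionBy ℤ G ((n : ℕ) : ℤ)) :=
  Finite.of_injective _ (Count.code_injective hX n p hroot hp)

/-- If `ξ` maps the nonzero `n`-torsion into the roots of a nonzero polynomial `p`, the
`n`-torsion has at most `2 * deg p + 1` elements. -/
theorem IsXi.card_torsion_le (hX : IsXi A B xi) (n : ℕ) (p : F[X]) (hp : p ≠ 0)
    (hroot : ∀ P : G, P ≠ 0 → n • P = 0 → p.IsRoot (xi P)) :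
    Nat.card (Submodule.torsionBy ℤ G ((n : ℕ) : ℤ)) ≤ 2 * p.natDegree + 1 := by
  classical
  have h1 := Nat.card_le_card_of_injective _ (Count.code_injective hX n p hroot hp)
  refine h1.trans ?_
  rw [Nat.card_eq_fintype_card, Fintype.card_option, Fintype.card_prod, Fintype.card_bool,
    Fintype.card_coe]
  have h2 : p.roots.toFinset.card ≤ p.natDegree :=
    (Multiset.toFinset_card_le _).trans (card_roots' p)
  omega

end Fermat.Agent.S51
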